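import Fermat.Agent.S16.ThetaE.Defs

/-!
# S16 theta package, route E — package E1: ring identities and positivity

All identities are polynomial identities in `(p, s, r, t)` modulo the relation
`(4 s - 1) t = r ^ 2 + p`.
-/

set_option autoImplicit false

namespace Fermat.Agent.S16.ThetaE

section poly

variable {R : Type*} [CommRing R]

theorem mulA_mulB (p s r t : R) (h : (4 * s - 1) * t = r ^ 2 + p) (y : Fin 4 → R) :
    mulA p s r t (mulB p s r t y) = fun i => p * y i := by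
  have hp : p = (4 * s - 1) * t - r ^ 2 := by linear_combination -h
  subst hp
  funext i
  fin_cases i <;> simp [mulA, mulB] <;> ring

theorem mulB_mulA (p s r t : R) (h : (4 * s - 1) * t = r ^ 2 + p) (x : Fin 4 → R) :
    mulB p s r t (mulA p s r t x) = fun i => p * x i := by
  have hp : p = (4 * s - 1) * t - r ^ 2 := by linear_combination -h
  subst hp
  funext i
  fin_cases i <;> simp [mulA, mulB] <;> ring

theorem QB_mulA (p s r t : R) (h : (4 * s - 1) * t = r ^ 2 + p) (x : Fin 4 → R) :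
    QB p s r t (mulA p s r t x) = p * QA p s r t x := by
  have hp : p = (4 * s - 1) * t - r ^ 2 := by linear_combination -h
  subst hp
  simp [QA, QB, mulA]
  ring

theorem QA_mulB (p s r t : R) (h : (4 * s - 1) * t = r ^ 2 + p) (y : Fin 4 → R) :
    QA p s r t (mulB p s r t y) = p * QB p s r t y := by
  have hp : p = (4 * s - 1) * t - r ^ 2 := by linear_combination -h
  subst hp
  simp [QA, QB, mulB]
  ring

theorem QA_add (p s r t : R) (x x' : Fin 4 → R) :
    QA p s r t (x + x') = QA p s r t x + QA p s r t x' + dot4 x (mulA p s r t x') := by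
  simp [QA, dot4, mulA]
  ring

theorem QB_add (p s r t : R) (y y' : Fin 4 → R) :
    QB p s r t (y + y') = QB p s r t y + QB p s r t y' + dot4 y (mulB p s r t y') := by
  simp [QB, dot4, mulB]
  ring

theorem dot4_mulA (p s r t : R) (x y : Fin 4 → R) :
    dot4 x (mulA p s r t y) = dot4 (mulA p s r t x) y := by
  simp [dot4, mulA]
  ring

theorem dot4_mulB (p s r t : R) (x y : Fin 4 → R) :
    dot4 x (mulB p s r t y) = dot4 (mulB p s r t x) y := by
  simp [dot4, mulB]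
  ring

theorem QA_smul (p s r t c : R) (x : Fin 4 → R) :
    QA p s r t (fun i => c * x i) = c ^ 2 * QA p s r t x := by
  simp only [QA]
  ring

theorem QB_smul (p s r t c : R) (y : Fin 4 → R) :
    QB p s r t (fun i => c * y i) = c ^ 2 * QB p s r t y := by
  simp only [QB]
  ring

theorem QA_neg (p s r t : R) (x : Fin 4 → R) : QA p s r t (-x) = QA p s r t x := by
  simp only [QA, Pi.neg_apply]
  ring

theorem QA_map {S : Type*} [CommRing S] (f : R →+* S) (p s r t : R) (x : Fin 4 → R) :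
    f (QA p s r t x) = QA (f p) (f s) (f r) (f t) (fun i => f (x i)) := by
  simp [QA]

theorem QB_map {S : Type*} [CommRing S] (f : R →+* S) (p s r t : R) (y : Fin 4 → R) :
    f (QB p s r t y) = QB (f p) (f s) (f r) (f t) (fun i => f (y i)) := by
  simp [QB, map_ofNat]

theorem mulA_map {S : Type*} [CommRing S] (f : R →+* S) (p s r t : R) (x : Fin 4 → R) (i : Fin 4) :
    f (mulA p s r t x i) = mulA (f p) (f s) (f r) (f t) (fun i => f (x i)) i := by
  fin_cases i <;> simp [mulA, map_ofNat]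

theorem mulB_map {S : Type*} [CommRing S] (f : R →+* S) (p s r t : R) (y : Fin 4 → R) (i : Fin 4) :
    f (mulB p s r t y i) = mulB (f p) (f s) (f r) (f t) (fun i => f (y i)) i := by
  fin_cases i <;> simp [mulB, map_ofNat]

/-- The sum-of-squares decomposition of `QA`. -/
theorem alg_sos (p s r t : R) (h : (4 * s - 1) * t = r ^ 2 + p) (x : Fin 4 → R) :
    4 * s * (4 * s - 1) * QA p s r t x
      = s * (4 * s - 1) * (2 * x 0 + x 1) ^ 2 + s * ((4 * s - 1) * x 1 + 2 * r * x 3) ^ 2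
        + p * (4 * s - 1) * (2 * s * x 2 + x 3) ^ 2 + p * x 3 ^ 2 := by
  have hp : p = (4 * s - 1) * t - r ^ 2 := by linear_combination -h
  subst hp
  simp only [QA]
  ring

end poly

section ordered

variable {R : Type*} [CommRing R] [LinearOrder R] [IsStrictOrderedRing R]

/-- `QA` is non-negative over an ordered ring. -/
theorem alg_QA_nonneg (p s r t : R) (h : (4 * s - 1) * t = r ^ 2 + p) (hp : 0 < p) (hs : 1 ≤ s)
    (x : Fin 4 → R) : 0 ≤ QA p s r t x := by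
  have hs0 : 0 < s := lt_of_lt_of_le one_pos hs
  have hq : 0 < 4 * s - 1 := by linarith
  have hsos := alg_sos p s r t h x
  have hrhs : 0 ≤ s * (4 * s - 1) * (2 * x 0 + x 1) ^ 2 + s * ((4 * s - 1) * x 1 + 2 * r * x 3) ^ 2
      + p * (4 * s - 1) * (2 * s * x 2 + x 3) ^ 2 + p * x 3 ^ 2 := by positivity
  rw [← hsos] at hrhs
  have hc : 0 < 4 * s * (4 * s - 1) := by positivity
  exact nonneg_of_mul_nonneg_right hrhs hc

/-- `QA` is anisotropic over an ordered ring. -/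
theorem alg_eq_zero_of_QA_eq_zero (p s r t : R) (h : (4 * s - 1) * t = r ^ 2 + p) (hp : 0 < p)
    (hs : 1 ≤ s) (x : Fin 4 → R) (hx : QA p s r t x = 0) : x = 0 := by
  have hs0 : 0 < s := lt_of_lt_of_le one_pos hs
  have hq : 0 < 4 * s - 1 := by linarith
  have hsos := alg_sos p s r t h x
  rw [hx, mul_zero] at hsos
  have h1 : 0 ≤ s * (4 * s - 1) * (2 * x 0 + x 1) ^ 2 := by positivity
  have h2 : 0 ≤ s * ((4 * s - 1) * x 1 + 2 * r * x 3) ^ 2 := by positivity
  have h3 : 0 ≤ p * (4 * s - 1) * (2 * s * x 2 + x 3) ^ 2 := by positivity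
  have h4 : 0 ≤ p * x 3 ^ 2 := by positivity
  have e4 : p * x 3 ^ 2 = 0 := by linarith
  have e3 : p * (4 * s - 1) * (2 * s * x 2 + x 3) ^ 2 = 0 := by linarith
  have e2 : s * ((4 * s - 1) * x 1 + 2 * r * x 3) ^ 2 = 0 := by linarith
  have e1 : s * (4 * s - 1) * (2 * x 0 + x 1) ^ 2 = 0 := by linarith
  have x3 : x 3 = 0 := by
    rcases mul_eq_zero.mp e4 with h' | h'
    · exact absurd h' hp.ne'
    · exact pow_eq_zero_iff (two_ne_zero) |>.mp h'
  have x2 : x 2 = 0 := by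
    have : (2 * s * x 2 + x 3) ^ 2 = 0 := by
      rcases mul_eq_zero.mp e3 with h' | h'
      · exact absurd h' (mul_pos hp hq).ne'
      · exact h'
    have h5 : 2 * s * x 2 + x 3 = 0 := pow_eq_zero_iff (two_ne_zero) |>.mp this
    rw [x3, add_zero] at h5
    rcases mul_eq_zero.mp h5 with h' | h'
    · exact absurd h' (by positivity)
    · exact h'
  have x1 : x 1 = 0 := by
    have : ((4 * s - 1) * x 1 + 2 * r * x 3) ^ 2 = 0 := by
      rcases mul_eq_zero.mp e2 with h' | h'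
      · exact absurd h' hs0.ne'
      · exact h'
    have h5 : (4 * s - 1) * x 1 + 2 * r * x 3 = 0 := pow_eq_zero_iff (two_ne_zero) |>.mp this
    rw [x3, mul_zero, add_zero] at h5
    rcases mul_eq_zero.mp h5 with h' | h'
    · exact absurd h' hq.ne'
    · exact h'
  have x0 : x 0 = 0 := by
    have : (2 * x 0 + x 1) ^ 2 = 0 := by
      rcases mul_eq_zero.mp e1 with h' | h'
      · exact absurd h' (mul_pos hs0 hq).ne'
      · exact h'
    have h5 : 2 * x 0 + x 1 = 0 := pow_eq_zero_iff (two_ne_zero) |>.mp this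
    rw [x1, add_zero] at h5
    rcases mul_eq_zero.mp h5 with h' | h'
    · exact absurd h' two_ne_zero
    · exact h'
  funext i
  fin_cases i
  · exact x0
  · exact x1
  · exact x2
  · exact x3

/-- `QB` is non-negative over an ordered ring. -/
theorem alg_QB_nonneg (p s r t : R) (h : (4 * s - 1) * t = r ^ 2 + p) (hp : 0 < p) (hs : 1 ≤ s)
    (y : Fin 4 → R) : 0 ≤ QB p s r t y := by
  have h1 := alg_QA_nonneg p s r t h hp hs (mulB p s r t y)
  rw [QA_mulB p s r t h] at h1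
  exact nonneg_of_mul_nonneg_right h1 hp

/-- `QB` is anisotropic over an ordered ring. -/
theorem alg_eq_zero_of_QB_eq_zero (p s r t : R) (h : (4 * s - 1) * t = r ^ 2 + p) (hp : 0 < p)
    (hs : 1 ≤ s) (y : Fin 4 → R) (hy : QB p s r t y = 0) : y = 0 := by
  have h1 : QA p s r t (mulB p s r t y) = 0 := by rw [QA_mulB p s r t h, hy, mul_zero]
  have h2 := alg_eq_zero_of_QA_eq_zero p s r t h hp hs _ h1
  have h3 := mulA_mulB p s r t h y
  rw [h2] at h3
  funext i
  have h4 := congrFun h3 i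
  have h5 : mulA p s r t (0 : Fin 4 → R) i = 0 := by
    fin_cases i <;> simp [mulA]
  rw [h5] at h4
  rcases mul_eq_zero.mp h4.symm with h' | h'
  · exact absurd h' hp.ne'
  · exact h'

end ordered

/-- A continuous, homogeneous, anisotropic non-negative form on `ℝ⁴` is coercive. -/
theorem alg_coercive (Q : (Fin 4 → ℝ) → ℝ) (hc : Continuous Q)
    (hhom : ∀ (c : ℝ) (x : Fin 4 → ℝ), Q (fun i => c * x i) = c ^ 2 * Q x)
    (hnn : ∀ x, 0 ≤ Q x) (h0 : ∀ x, Q x = 0 → x = 0) :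
    ∃ ε : ℝ, 0 < ε ∧ ∀ x : Fin 4 → ℝ, ε * (x 0 ^ 2 + x 1 ^ 2 + x 2 ^ 2 + x 3 ^ 2) ≤ Q x := by
  have hS : IsCompact (Metric.sphere (0 : Fin 4 → ℝ) 1) := isCompact_sphere 0 1
  have hne : (Metric.sphere (0 : Fin 4 → ℝ) 1).Nonempty :=
    (NormedSpace.sphere_nonempty (E := Fin 4 → ℝ)).mpr zero_le_one
  obtain ⟨x₀, hx₀, hmin⟩ := hS.exists_isMinOn hne hc.continuousOn
  have hx₀n : ‖x₀‖ = 1 := by simpa using hx₀
  have hm : 0 < Q x₀ := by
    rcases (hnn x₀).lt_or_eq with h | h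
    · exact h
    · have := h0 x₀ h.symm
      rw [this, norm_zero] at hx₀n
      exact absurd hx₀n zero_ne_one
  refine ⟨Q x₀ / 4, by positivity, fun x => ?_⟩
  by_cases hx : x = 0
  · subst hx
    have := hhom 0 0
    simp only [Pi.zero_apply, mul_zero] at this
    have h00 : Q (0 : Fin 4 → ℝ) = 0 := by
      have e : (fun _ : Fin 4 => (0 : ℝ)) = 0 := rfl
      rw [e] at this
      rw [this]
      ring
    rw [h00]
    simp
  · have hn : 0 < ‖x‖ := norm_pos_iff.mpr hx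
    set y : Fin 4 → ℝ := fun i => ‖x‖⁻¹ * x i with hy
    have hy1 : y ∈ Metric.sphere (0 : Fin 4 → ℝ) 1 := by
      have e : y = ‖x‖⁻¹ • x := rfl
      rw [mem_sphere_zero_iff_norm, e, norm_smul, norm_inv, norm_norm, inv_mul_cancel₀ hn.ne']
    have hQy : Q x₀ ≤ Q y := hmin hy1
    have hxy : x = fun i => ‖x‖ * y i := by
      funext i
      simp only [hy]
      field_simp
    have hQx : Q x = ‖x‖ ^ 2 * Q y := by
      conv_lhs => rw [hxy]
      exact hhom _ _
    have hb : ∀ i, x i ^ 2 ≤ ‖x‖ ^ 2 := by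
      intro i
      have h1 : |x i| ≤ ‖x‖ := by
        have := norm_le_pi_norm x i
        rwa [Real.norm_eq_abs] at this
      calc x i ^ 2 = |x i| ^ 2 := (sq_abs _).symm
        _ ≤ ‖x‖ ^ 2 := pow_le_pow_left₀ (abs_nonneg _) h1 2
    have h4 : x 0 ^ 2 + x 1 ^ 2 + x 2 ^ 2 + x 3 ^ 2 ≤ 4 * ‖x‖ ^ 2 := by
      linarith [hb 0, hb 1, hb 2, hb 3]
    rw [hQx]
    have h5 : Q x₀ / 4 * (x 0 ^ 2 + x 1 ^ 2 + x 2 ^ 2 + x 3 ^ 2) ≤ Q x₀ / 4 * (4 * ‖x‖ ^ 2) :=
      mul_le_mul_of_nonneg_left h4 (by positivity)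
    have h6 : ‖x‖ ^ 2 * Q x₀ ≤ ‖x‖ ^ 2 * Q y := mul_le_mul_of_nonneg_left hQy (by positivity)
    linarith

/-- Coercivity of `QA` over `ℝ` (from the sum-of-squares decomposition
`2 QA = 2 (x₀ + x₁/2)² + (qq/2)(x₁ + 2 r x₃/qq)² + 2 p s (x₂ + x₃/(2s))² + p/(2 s qq) x₃²`,
`qq = 4 s - 1`). -/
theorem exists_coercive_QA {p : ℕ} {s r t : ℤ} (hp : 0 < p) (h : IsLat p s r t) :
    ∃ ε : ℝ, 0 < ε ∧ ∀ x : Fin 4 → ℝ,
      ε * (x 0 ^ 2 + x 1 ^ 2 + x 2 ^ 2 + x 3 ^ 2) ≤ QA (p : ℝ) (s : ℝ) r t x := by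
  have hrel : (4 * (s : ℝ) - 1) * (t : ℝ) = (r : ℝ) ^ 2 + (p : ℝ) := by exact_mod_cast h.hrel
  have hp' : (0 : ℝ) < p := by exact_mod_cast hp
  have hs' : (1 : ℝ) ≤ s := by exact_mod_cast h.hs
  refine alg_coercive _ ?_ (fun c x => QA_smul _ _ _ _ c x)
    (alg_QA_nonneg _ _ _ _ hrel hp' hs') (alg_eq_zero_of_QA_eq_zero _ _ _ _ hrel hp' hs')
  unfold QA
  fun_prop

/-- Coercivity of `QB` over `ℝ` (e.g. from `QB y = QA (B y) / p` and `A (B y) = p y`). -/
theorem exists_coercive_QB {p : ℕ} {s r t : ℤ} (hp : 0 < p) (h : IsLat p s r t) :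
    ∃ ε : ℝ, 0 < ε ∧ ∀ y : Fin 4 → ℝ,
      ε * (y 0 ^ 2 + y 1 ^ 2 + y 2 ^ 2 + y 3 ^ 2) ≤ QB (p : ℝ) (s : ℝ) r t y := by
  have hrel : (4 * (s : ℝ) - 1) * (t : ℝ) = (r : ℝ) ^ 2 + (p : ℝ) := by exact_mod_cast h.hrel
  have hp' : (0 : ℝ) < p := by exact_mod_cast hp
  have hs' : (1 : ℝ) ≤ s := by exact_mod_cast h.hs
  refine alg_coercive _ ?_ (fun c y => QB_smul _ _ _ _ c y)
    (alg_QB_nonneg _ _ _ _ hrel hp' hs') (alg_eq_zero_of_QB_eq_zero _ _ _ _ hrel hp' hs')
  unfold QB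
  fun_prop

theorem QA_nonneg {p : ℕ} {s r t : ℤ} (hp : 0 < p) (h : IsLat p s r t) (x : Fin 4 → ℤ) :
    0 ≤ QA (p : ℤ) s r t x :=
  alg_QA_nonneg _ _ _ _ h.hrel (by exact_mod_cast hp) h.hs x

theorem QA_eq_zero_iff {p : ℕ} {s r t : ℤ} (hp : 0 < p) (h : IsLat p s r t) (x : Fin 4 → ℤ) :
    QA (p : ℤ) s r t x = 0 ↔ x = 0 := by
  constructor
  · exact alg_eq_zero_of_QA_eq_zero _ _ _ _ h.hrel (by exact_mod_cast hp) h.hs x
  · rintro rfl
    simp [QA]

theorem QB_nonneg {p : ℕ} {s r t : ℤ} (hp : 0 < p) (h : IsLat p s r t) (y : Fin 4 → ℤ) :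
    0 ≤ QB (p : ℤ) s r t y :=
  alg_QB_nonneg _ _ _ _ h.hrel (by exact_mod_cast hp) h.hs y

end Fermat.Agent.S16.ThetaE
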