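import Mathlib

/-!
# Gaussian Poisson summation on `ℤⁿ` for triangular sums of squares

`Tri n` is the data of a positive definite quadratic form in `n` variables written as a triangular
sum of squares, `Q(x) = d₀ (x₀ + u · x')² + Q'(x')`.  The dual form is
`Q*(y) = y₀² / d₀ + Q'*(y' - y₀ u)`.  We prove (by induction on `n`, from Mathlib's one-dimensional
`Complex.tsum_exp_neg_quadratic`) the theta inversion formula with real characteristics

`∑ₓ exp(-π τ Q(x + σ) + 2 π i c·(x + σ)) = K ∑_y exp(-(π/τ) Q*(y - c) + 2 π i y·σ)`.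
-/

set_option autoImplicit false

namespace Fermat.Agent.S16.ThetaE

open Complex

/-! ### One variable -/

/-- One-dimensional theta inversion with real characteristics. -/
theorem poisson_one {a : ℂ} (ha : 0 < a.re) (s c : ℝ) :
    ∑' n : ℤ, cexp (-Real.pi * a * ((n : ℂ) + s) ^ 2 + 2 * Real.pi * I * c * ((n : ℂ) + s)) =
      1 / a ^ (1 / 2 : ℂ) *
        ∑' m : ℤ, cexp (-Real.pi / a * ((m : ℂ) - c) ^ 2 + 2 * Real.pi * I * m * s) := by
  have ha0 : a ≠ 0 := by
    rintro rfl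
    simp at ha
  have key := Complex.tsum_exp_neg_quadratic ha (-a * s + I * c)
  have h1 : ∀ n : ℤ, cexp (-Real.pi * a * ((n : ℂ) + s) ^ 2 + 2 * Real.pi * I * c * ((n : ℂ) + s)) =
      cexp (-Real.pi * a * s ^ 2 + 2 * Real.pi * I * c * s) *
        cexp (-Real.pi * a * (n : ℂ) ^ 2 + 2 * Real.pi * (-a * s + I * c) * n) := by
    intro n
    rw [← Complex.exp_add]
    congr 1
    ring
  have h2 : ∀ m : ℤ, cexp (-Real.pi * a * s ^ 2 + 2 * Real.pi * I * c * s) *
      cexp (-Real.pi / a * ((m : ℂ) + I * (-a * s + I * c)) ^ 2) =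
        cexp (-Real.pi / a * ((m : ℂ) - c) ^ 2 + 2 * Real.pi * I * m * s) := by
    intro m
    rw [← Complex.exp_add]
    congr 1
    have hI : (I : ℂ) ^ 2 = -1 := I_sq
    field_simp
    linear_combination (2 * a * s * c * I - a ^ 2 * s ^ 2 - 2 * c * m - c ^ 2 * (I ^ 2 - 1)) * hI
  simp_rw [h1]
  rw [tsum_mul_left, key, mul_left_comm, ← tsum_mul_left]
  simp_rw [h2]

/-- Uniform bound for shifted one-dimensional Gaussian sums. -/
theorem gauss_one_bound (a : ℝ) (ha : 0 < a) :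
    ∃ C : ℝ, ∀ s : ℝ, Summable (fun n : ℤ => Real.exp (-a * ((n : ℝ) + s) ^ 2)) ∧
      ∑' n : ℤ, Real.exp (-a * ((n : ℝ) + s) ^ 2) ≤ C := by
  have hsum : Summable (fun k : ℤ => Real.exp (-(a / 4) * (k : ℝ) ^ 2)) := by
    have := summable_pow_mul_jacobiTheta₂_term_bound 0 (T := a / 4 / Real.pi)
      (by positivity) 0
    refine this.congr fun k => ?_
    have hpi : Real.pi ≠ 0 := Real.pi_ne_zero
    simp only [pow_zero, one_mul, zero_mul, mul_zero, sub_zero]
    congr 1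
    field_simp
  refine ⟨∑' k : ℤ, Real.exp (-(a / 4) * (k : ℝ) ^ 2), fun s => ?_⟩
  -- shift by the nearest integer to `s`
  set n₀ : ℤ := round s with hn₀
  have hδ : |s - n₀| ≤ 1 / 2 := by
    rw [hn₀]
    exact abs_sub_round s
  have hle : ∀ k : ℤ, Real.exp (-a * (((k - n₀ : ℤ) : ℝ) + s) ^ 2) ≤
      Real.exp (-(a / 4) * (k : ℝ) ^ 2) := by
    intro k
    apply Real.exp_le_exp.mpr
    have h1 : ((k - n₀ : ℤ) : ℝ) + s = k + (s - n₀) := by push_cast; ring
    rw [h1]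
    have hk : (k : ℝ) ^ 2 / 4 ≤ ((k : ℝ) + (s - n₀)) ^ 2 := by
      rcases eq_or_ne k 0 with rfl | hk0
      · simp; positivity
      · have hk1 : (1 : ℝ) ≤ |(k : ℝ)| := by
          have : (1 : ℤ) ≤ |k| := Int.one_le_abs hk0
          exact_mod_cast this
        have h2 : |(k : ℝ)| / 2 ≤ |(k : ℝ) + (s - n₀)| := by
          have := abs_sub_abs_le_abs_sub (k : ℝ) (-(s - n₀))
          rw [abs_neg, sub_neg_eq_add] at this
          linarith
        have h3 : (|(k : ℝ)| / 2) ^ 2 ≤ |(k : ℝ) + (s - n₀)| ^ 2 :=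
          pow_le_pow_left₀ (by positivity) h2 2
        rw [sq_abs] at h3
        have h4 : (|(k : ℝ)| / 2) ^ 2 = (k : ℝ) ^ 2 / 4 := by
          rw [div_pow, sq_abs]; norm_num
        linarith
    nlinarith
  have hsum' : Summable (fun k : ℤ => Real.exp (-a * (((k - n₀ : ℤ) : ℝ) + s) ^ 2)) :=
    Summable.of_nonneg_of_le (fun _ => (Real.exp_pos _).le) hle hsum
  have e : (fun n : ℤ => Real.exp (-a * ((n : ℝ) + s) ^ 2)) ∘ (Equiv.subRight n₀) =
      fun k : ℤ => Real.exp (-a * (((k - n₀ : ℤ) : ℝ) + s) ^ 2) := by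
    funext k
    simp [Equiv.subRight]
  constructor
  · rw [← (Equiv.subRight n₀).summable_iff, e]
    exact hsum'
  · rw [← (Equiv.subRight n₀).tsum_eq, show (fun k : ℤ => Real.exp (-a * (((Equiv.subRight n₀) k : ℤ) + s) ^ 2)) =
      fun k : ℤ => Real.exp (-a * (((k - n₀ : ℤ) : ℝ) + s) ^ 2) from e]
    exact hsum'.tsum_le_tsum hle hsum

/-! ### Triangular data -/

/-- Triangular sum-of-squares data in `n` variables: `Q(x) = d (x₀ + u · x')² + Q'(x')`. -/
inductive Tri : ℕ → Type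
  | nil : Tri 0
  | cons {n : ℕ} (d : ℝ) (u : Fin n → ℝ) (T : Tri n) : Tri (n + 1)

namespace Tri

/-- The quadratic form. -/
noncomputable def Q : {n : ℕ} → Tri n → (Fin n → ℝ) → ℝ
  | _, nil, _ => 0
  | _, cons d u T, x => d * (x 0 + ∑ j, u j * x j.succ) ^ 2 + T.Q (fun j => x j.succ)

/-- The dual quadratic form. -/
noncomputable def Qs : {n : ℕ} → Tri n → (Fin n → ℝ) → ℝ
  | _, nil, _ => 0
  | _, cons d u T, y => (y 0) ^ 2 / d + T.Qs (fun j => y j.succ - y 0 * u j)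

/-- Positivity of the diagonal coefficients. -/
def Pos : {n : ℕ} → Tri n → Prop
  | _, nil => True
  | _, cons d _ T => 0 < d ∧ T.Pos

/-- The constant in the inversion formula. -/
noncomputable def K (τ : ℂ) : {n : ℕ} → Tri n → ℂ
  | _, nil => 1
  | _, cons d _ T => 1 / (τ * d) ^ (1 / 2 : ℂ) * T.K τ

@[simp] theorem Q_nil (x : Fin 0 → ℝ) : nil.Q x = 0 := rfl

@[simp] theorem Q_cons {n : ℕ} (d : ℝ) (u : Fin n → ℝ) (T : Tri n) (x : Fin (n + 1) → ℝ) :
    (cons d u T).Q x = d * (x 0 + ∑ j, u j * x j.succ) ^ 2 + T.Q (fun j => x j.succ) := rfl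

@[simp] theorem Qs_nil (y : Fin 0 → ℝ) : nil.Qs y = 0 := rfl

@[simp] theorem Qs_cons {n : ℕ} (d : ℝ) (u : Fin n → ℝ) (T : Tri n) (y : Fin (n + 1) → ℝ) :
    (cons d u T).Qs y = (y 0) ^ 2 / d + T.Qs (fun j => y j.succ - y 0 * u j) := rfl

@[simp] theorem pos_cons {n : ℕ} (d : ℝ) (u : Fin n → ℝ) (T : Tri n) :
    (cons d u T).Pos ↔ 0 < d ∧ T.Pos := Iff.rfl

@[simp] theorem K_nil (τ : ℂ) : nil.K τ = 1 := rfl

@[simp] theorem K_cons {n : ℕ} (τ : ℂ) (d : ℝ) (u : Fin n → ℝ) (T : Tri n) :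
    (cons d u T).K τ = 1 / (τ * d) ^ (1 / 2 : ℂ) * T.K τ := rfl

end Tri

/-- `(Fin (n + 1) → ℤ) ≃ (Fin n → ℤ) × ℤ`, the tail first. -/
def triSplit (n : ℕ) : (Fin (n + 1) → ℤ) ≃ (Fin n → ℤ) × ℤ where
  toFun x := (fun j => x j.succ, x 0)
  invFun q := Fin.cons q.2 q.1
  left_inv x := by
    funext i
    refine Fin.cases ?_ (fun j => ?_) i <;> simp
  right_inv q := by
    ext <;> simp

@[simp] theorem triSplit_symm_apply_zero (n : ℕ) (q : (Fin n → ℤ) × ℤ) :
    (triSplit n).symm q 0 = q.2 := by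
  simp [triSplit]

@[simp] theorem triSplit_symm_apply_succ (n : ℕ) (q : (Fin n → ℤ) × ℤ) (j : Fin n) :
    (triSplit n).symm q j.succ = q.1 j := by
  simp [triSplit]

/-- `(Fin (n + 1) → ℤ) ≃ ℤ × (Fin n → ℤ)`, the head first. -/
def triSplit' (n : ℕ) : (Fin (n + 1) → ℤ) ≃ ℤ × (Fin n → ℤ) where
  toFun x := (x 0, fun j => x j.succ)
  invFun q := Fin.cons q.1 q.2
  left_inv x := by
    funext i
    refine Fin.cases ?_ (fun j => ?_) i <;> simp
  right_inv q := by
    ext <;> simp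

@[simp] theorem triSplit'_symm_apply_zero (n : ℕ) (q : ℤ × (Fin n → ℤ)) :
    (triSplit' n).symm q 0 = q.1 := by
  simp [triSplit']

@[simp] theorem triSplit'_symm_apply_succ (n : ℕ) (q : ℤ × (Fin n → ℤ)) (j : Fin n) :
    (triSplit' n).symm q j.succ = q.2 j := by
  simp [triSplit']

namespace Tri

/-- Uniform bound for shifted Gaussian sums of `Q`. -/
theorem bound {n : ℕ} (T : Tri n) (hT : T.Pos) (a : ℝ) (ha : 0 < a) :
    ∃ C : ℝ, ∀ σ : Fin n → ℝ,
      Summable (fun x : Fin n → ℤ => Real.exp (-a * T.Q (fun i => (x i : ℝ) + σ i))) ∧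
      ∑' x : Fin n → ℤ, Real.exp (-a * T.Q (fun i => (x i : ℝ) + σ i)) ≤ C := by
  induction T with
  | nil =>
    refine ⟨1, fun σ => ?_⟩
    have h := hasSum_unique (fun x : Fin 0 → ℤ => Real.exp (-a * nil.Q (fun i => (x i : ℝ) + σ i)))
    refine ⟨h.summable, ?_⟩
    rw [h.tsum_eq]
    simp
  | @cons n d u T ih =>
    obtain ⟨hd, hT'⟩ := hT
    obtain ⟨C', hC'⟩ := ih hT'
    obtain ⟨C₁, hC₁⟩ := gauss_one_bound (a * d) (by positivity)
    have hC₁0 : 0 ≤ C₁ := le_trans (tsum_nonneg fun _ => (Real.exp_pos _).le) (hC₁ 0).2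
    refine ⟨C₁ * C', fun σ => ?_⟩
    -- the function on the product
    set F : (Fin n → ℤ) × ℤ → ℝ := fun q =>
      Real.exp (-(a * d) * ((q.2 : ℝ) + (σ 0 + ∑ j, u j * ((q.1 j : ℝ) + σ j.succ))) ^ 2) *
        Real.exp (-a * T.Q (fun j => (q.1 j : ℝ) + σ j.succ)) with hF
    have hFeq : (fun x : Fin (n + 1) → ℤ =>
        Real.exp (-a * (cons d u T).Q (fun i => (x i : ℝ) + σ i))) ∘ (triSplit n).symm = F := by
      funext q
      simp only [Function.comp, Q_cons, triSplit_symm_apply_zero, triSplit_symm_apply_succ, hF]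
      rw [← Real.exp_add]
      congr 1
      ring
    have hF0 : 0 ≤ F := fun q => mul_nonneg (Real.exp_pos _).le (Real.exp_pos _).le
    have hsec : ∀ x' : Fin n → ℤ, Summable fun x₀ : ℤ => F (x', x₀) := by
      intro x'
      exact ((hC₁ (σ 0 + ∑ j, u j * ((x' j : ℝ) + σ j.succ))).1).mul_right
        (Real.exp (-a * T.Q (fun j => (x' j : ℝ) + σ j.succ)))
    have hsecle : ∀ x' : Fin n → ℤ, ∑' x₀ : ℤ, F (x', x₀) ≤
        C₁ * Real.exp (-a * T.Q (fun j => (x' j : ℝ) + σ j.succ)) := by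
      intro x'
      simp only [hF]
      rw [tsum_mul_right]
      exact mul_le_mul_of_nonneg_right (hC₁ (σ 0 + ∑ j, u j * ((x' j : ℝ) + σ j.succ))).2
        (Real.exp_pos _).le
    have hsum2 : Summable fun x' : Fin n → ℤ => ∑' x₀ : ℤ, F (x', x₀) :=
      Summable.of_nonneg_of_le (fun x' => tsum_nonneg fun x₀ => hF0 _) hsecle
        (((hC' _).1).mul_left C₁)
    have hFsum : Summable F := (summable_prod_of_nonneg hF0).2 ⟨hsec, hsum2⟩
    constructor
    · rw [← (triSplit n).symm.summable_iff, hFeq]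
      exact hFsum
    · rw [← (triSplit n).symm.tsum_eq, show (fun q => Real.exp (-a * (cons d u T).Q
        (fun i => (((triSplit n).symm q) i : ℝ) + σ i))) = F from hFeq, hFsum.tsum_prod' hsec]
      calc ∑' x' : Fin n → ℤ, ∑' x₀ : ℤ, F (x', x₀)
          ≤ ∑' x' : Fin n → ℤ, C₁ * Real.exp (-a * T.Q (fun j => (x' j : ℝ) + σ j.succ)) :=
            hsum2.tsum_le_tsum hsecle (((hC' _).1).mul_left C₁)
        _ = C₁ * ∑' x' : Fin n → ℤ, Real.exp (-a * T.Q (fun j => (x' j : ℝ) + σ j.succ)) :=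
            tsum_mul_left
        _ ≤ C₁ * C' := mul_le_mul_of_nonneg_left (hC' _).2 hC₁0

/-- Uniform bound for shifted Gaussian sums of the dual form `Qs`. -/
theorem bound_dual {n : ℕ} (T : Tri n) (hT : T.Pos) (a : ℝ) (ha : 0 < a) :
    ∃ C : ℝ, ∀ c : Fin n → ℝ,
      Summable (fun y : Fin n → ℤ => Real.exp (-a * T.Qs (fun i => (y i : ℝ) - c i))) ∧
      ∑' y : Fin n → ℤ, Real.exp (-a * T.Qs (fun i => (y i : ℝ) - c i)) ≤ C := by
  induction T with
  | nil =>
    refine ⟨1, fun c => ?_⟩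
    have h := hasSum_unique (fun y : Fin 0 → ℤ => Real.exp (-a * nil.Qs (fun i => (y i : ℝ) - c i)))
    refine ⟨h.summable, ?_⟩
    rw [h.tsum_eq]
    simp
  | @cons n d u T ih =>
    obtain ⟨hd, hT'⟩ := hT
    obtain ⟨C', hC'⟩ := ih hT'
    obtain ⟨C₁, hC₁⟩ := gauss_one_bound (a / d) (by positivity)
    have hC'0 : 0 ≤ C' := le_trans (tsum_nonneg fun _ => (Real.exp_pos _).le) (hC' 0).2
    refine ⟨C₁ * C', fun c => ?_⟩
    set G : ℤ × (Fin n → ℤ) → ℝ := fun q =>
      Real.exp (-(a / d) * ((q.1 : ℝ) + (-c 0)) ^ 2) *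
        Real.exp (-a * T.Qs (fun j => (q.2 j : ℝ) - (c j.succ + ((q.1 : ℝ) - c 0) * u j))) with hG
    have hGeq : (fun y : Fin (n + 1) → ℤ =>
        Real.exp (-a * (cons d u T).Qs (fun i => (y i : ℝ) - c i))) ∘ (triSplit' n).symm = G := by
      funext q
      simp only [Function.comp, Qs_cons, triSplit'_symm_apply_zero, triSplit'_symm_apply_succ, hG]
      rw [← Real.exp_add]
      congr 1
      have e1 : (fun j : Fin n => (q.2 j : ℝ) - c j.succ - ((q.1 : ℝ) - c 0) * u j) =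
          fun j : Fin n => (q.2 j : ℝ) - (c j.succ + ((q.1 : ℝ) - c 0) * u j) := by
        funext j; ring
      rw [e1]
      field_simp
      ring
    have hG0 : 0 ≤ G := fun q => mul_nonneg (Real.exp_pos _).le (Real.exp_pos _).le
    have hsec : ∀ y₀ : ℤ, Summable fun y' : Fin n → ℤ => G (y₀, y') := by
      intro y₀
      exact ((hC' (fun j => c j.succ + ((y₀ : ℝ) - c 0) * u j)).1).mul_left
        (Real.exp (-(a / d) * ((y₀ : ℝ) + (-c 0)) ^ 2))
    have hsecle : ∀ y₀ : ℤ, ∑' y' : Fin n → ℤ, G (y₀, y') ≤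
        Real.exp (-(a / d) * ((y₀ : ℝ) + (-c 0)) ^ 2) * C' := by
      intro y₀
      simp only [hG]
      rw [tsum_mul_left]
      exact mul_le_mul_of_nonneg_left (hC' (fun j => c j.succ + ((y₀ : ℝ) - c 0) * u j)).2
        (Real.exp_pos _).le
    have hsum2 : Summable fun y₀ : ℤ => ∑' y' : Fin n → ℤ, G (y₀, y') :=
      Summable.of_nonneg_of_le (fun y₀ => tsum_nonneg fun y' => hG0 _) hsecle
        (((hC₁ (-c 0)).1).mul_right C')
    have hGsum : Summable G := (summable_prod_of_nonneg hG0).2 ⟨hsec, hsum2⟩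
    constructor
    · rw [← (triSplit' n).symm.summable_iff, hGeq]
      exact hGsum
    · rw [← (triSplit' n).symm.tsum_eq, show (fun q => Real.exp (-a * (cons d u T).Qs
        (fun i => (((triSplit' n).symm q) i : ℝ) - c i))) = G from hGeq, hGsum.tsum_prod' hsec]
      calc ∑' y₀ : ℤ, ∑' y' : Fin n → ℤ, G (y₀, y')
          ≤ ∑' y₀ : ℤ, Real.exp (-(a / d) * ((y₀ : ℝ) + (-c 0)) ^ 2) * C' :=
            hsum2.tsum_le_tsum hsecle (((hC₁ (-c 0)).1).mul_right C')
        _ = (∑' y₀ : ℤ, Real.exp (-(a / d) * ((y₀ : ℝ) + (-c 0)) ^ 2)) * C' :=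
            tsum_mul_right
        _ ≤ C₁ * C' := mul_le_mul_of_nonneg_right (hC₁ (-c 0)).2 hC'0

/-- The Gaussian term with real characteristics `σ`, `c`. -/
noncomputable def term {n : ℕ} (T : Tri n) (τ : ℂ) (σ c : Fin n → ℝ) (x : Fin n → ℤ) : ℂ :=
  cexp (-Real.pi * τ * (T.Q (fun i => (x i : ℝ) + σ i) : ℝ)
    + 2 * Real.pi * I * ((∑ i, c i * ((x i : ℝ) + σ i) : ℝ) : ℂ))

/-- The dual Gaussian term. -/
noncomputable def dterm {n : ℕ} (T : Tri n) (τ : ℂ) (σ c : Fin n → ℝ) (y : Fin n → ℤ) : ℂ :=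
  cexp (-Real.pi / τ * (T.Qs (fun i => (y i : ℝ) - c i) : ℝ)
    + 2 * Real.pi * I * ((∑ i, (y i : ℝ) * σ i : ℝ) : ℂ))

theorem norm_term {n : ℕ} (T : Tri n) (τ : ℂ) (σ c : Fin n → ℝ) (x : Fin n → ℤ) :
    ‖T.term τ σ c x‖ = Real.exp (-(Real.pi * τ.re) * T.Q (fun i => (x i : ℝ) + σ i)) := by
  rw [term, Complex.norm_exp]
  congr 1
  simp only [add_re, mul_re, neg_re, ofReal_re, neg_im, ofReal_im, mul_im, re_ofNat, im_ofNat,
    I_re, I_im]
  ring

theorem norm_dterm {n : ℕ} (T : Tri n) (τ : ℂ) (σ c : Fin n → ℝ) (y : Fin n → ℤ) :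
    ‖T.dterm τ σ c y‖ =
      Real.exp (-(Real.pi * (τ.re / normSq τ)) * T.Qs (fun i => (y i : ℝ) - c i)) := by
  rw [dterm, Complex.norm_exp]
  congr 1
  simp only [add_re, mul_re, neg_re, ofReal_re, neg_im, ofReal_im, mul_im, re_ofNat, im_ofNat,
    I_re, I_im, div_re, div_im]
  ring

theorem summable_term {n : ℕ} (T : Tri n) (hT : T.Pos) (τ : ℂ) (hτ : 0 < τ.re)
    (σ c : Fin n → ℝ) : Summable (T.term τ σ c) := by
  obtain ⟨C, hC⟩ := T.bound hT (Real.pi * τ.re) (by positivity)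
  refine Summable.of_norm ?_
  simp_rw [norm_term]
  exact (hC σ).1

theorem re_div_normSq_pos {τ : ℂ} (hτ : 0 < τ.re) : 0 < τ.re / normSq τ := by
  have : τ ≠ 0 := by
    rintro rfl
    simp at hτ
  exact div_pos hτ (normSq_pos.mpr this)

theorem summable_dterm {n : ℕ} (T : Tri n) (hT : T.Pos) (τ : ℂ) (hτ : 0 < τ.re)
    (σ c : Fin n → ℝ) : Summable (T.dterm τ σ c) := by
  obtain ⟨C, hC⟩ := T.bound_dual hT (Real.pi * (τ.re / normSq τ))
    (mul_pos Real.pi_pos (re_div_normSq_pos hτ))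
  refine Summable.of_norm ?_
  simp_rw [norm_dterm]
  exact (hC c).1

/-- **Theta inversion for triangular sums of squares**, with real characteristics. -/
theorem poisson {n : ℕ} (T : Tri n) (hT : T.Pos) (τ : ℂ) (hτ : 0 < τ.re) (σ c : Fin n → ℝ) :
    ∑' x : Fin n → ℤ, T.term τ σ c x = T.K τ * ∑' y : Fin n → ℤ, T.dterm τ σ c y := by
  induction T with
  | nil =>
    rw [(hasSum_unique (nil.term τ σ c)).tsum_eq, (hasSum_unique (nil.dterm τ σ c)).tsum_eq]
    simp [term, dterm]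
  | @cons n d u T ih =>
    obtain ⟨hd, hT'⟩ := hT
    have hτ0 : τ ≠ 0 := by
      rintro rfl
      simp at hτ
    have hd0 : (d : ℂ) ≠ 0 := by exact_mod_cast hd.ne'
    have ha : 0 < (τ * d).re := by
      simp only [mul_re, ofReal_re, ofReal_im, mul_zero, sub_zero]
      positivity
    -- notation
    set L : (Fin n → ℤ) → ℝ := fun x' => ∑ j, u j * ((x' j : ℝ) + σ j.succ) with hL
    set R : (Fin n → ℤ) → ℂ := fun x' =>
      cexp (-Real.pi * τ * (T.Q (fun j => (x' j : ℝ) + σ j.succ) : ℝ)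
        + 2 * Real.pi * I * ((∑ j, c j.succ * ((x' j : ℝ) + σ j.succ) - c 0 * L x' : ℝ) : ℂ))
      with hR
    set E : ℤ → ℂ := fun m =>
      cexp (-Real.pi / (τ * d) * ((m : ℂ) - c 0) ^ 2 + 2 * Real.pi * I * m * σ 0) with hE
    set M : (Fin n → ℤ) → ℤ → ℂ := fun x' m =>
      R x' * cexp (-Real.pi / (τ * d) * ((m : ℂ) - c 0) ^ 2
        + 2 * Real.pi * I * m * ((σ 0 + L x' : ℝ) : ℂ)) with hM
    -- (1) the term on the product
    have h1 : ∀ (x' : Fin n → ℤ) (x₀ : ℤ), (cons d u T).term τ σ c ((triSplit n).symm (x', x₀)) =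
        R x' * cexp (-Real.pi * (τ * d) * ((x₀ : ℂ) + ((σ 0 + L x' : ℝ) : ℂ)) ^ 2
          + 2 * Real.pi * I * (c 0 : ℝ) * ((x₀ : ℂ) + ((σ 0 + L x' : ℝ) : ℂ))) := by
      intro x' x₀
      simp only [term, hR, Q_cons, Fin.sum_univ_succ, triSplit_symm_apply_zero,
        triSplit_symm_apply_succ]
      rw [← Complex.exp_add]
      congr 1
      simp only [hL]
      push_cast
      ring
    -- (2) the inner sum
    have h2 : ∀ x' : Fin n → ℤ, ∑' x₀ : ℤ, (cons d u T).term τ σ c ((triSplit n).symm (x', x₀)) =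
        1 / (τ * d) ^ (1 / 2 : ℂ) * ∑' m : ℤ, M x' m := by
      intro x'
      simp_rw [h1 x']
      rw [tsum_mul_left, poisson_one ha (σ 0 + L x') (c 0), mul_left_comm, ← tsum_mul_left]
    -- (3) the mixed term
    have h3 : ∀ (x' : Fin n → ℤ) (m : ℤ), M x' m =
        E m * T.term τ (fun j => σ j.succ) (fun j => c j.succ + ((m : ℝ) - c 0) * u j) x' := by
      intro x' m
      simp only [hM, hR, hE, term]
      rw [← Complex.exp_add, ← Complex.exp_add]
      congr 1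
      have e1 : (∑ j, (c j.succ + ((m : ℝ) - c 0) * u j) * ((x' j : ℝ) + σ j.succ)) =
          ∑ j, c j.succ * ((x' j : ℝ) + σ j.succ) + ((m : ℝ) - c 0) * L x' := by
        simp only [hL, Finset.mul_sum, ← Finset.sum_add_distrib]
        refine Finset.sum_congr rfl fun j _ => ?_
        ring
      rw [e1]
      push_cast
      ring
    -- (5) the dual term on the product
    have h5 : ∀ (m : ℤ) (y' : Fin n → ℤ),
        E m * T.dterm τ (fun j => σ j.succ) (fun j => c j.succ + ((m : ℝ) - c 0) * u j) y' =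
          (cons d u T).dterm τ σ c ((triSplit' n).symm (m, y')) := by
      intro m y'
      simp only [dterm, hE, Qs_cons, Fin.sum_univ_succ, triSplit'_symm_apply_zero,
        triSplit'_symm_apply_succ]
      rw [← Complex.exp_add]
      congr 1
      have e1 : (fun j : Fin n => (y' j : ℝ) - c j.succ - ((m : ℝ) - c 0) * u j) =
          fun j : Fin n => (y' j : ℝ) - (c j.succ + ((m : ℝ) - c 0) * u j) := by
        funext j; ring
      rw [e1]
      push_cast
      field_simp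
      ring
    -- summability facts
    have hS1 : Summable fun q : (Fin n → ℤ) × ℤ => (cons d u T).term τ σ c ((triSplit n).symm q) :=
      (triSplit n).symm.summable_iff.mpr
        ((cons d u T).summable_term ⟨hd, hT'⟩ τ hτ σ c)
    have hS5 : Summable fun q : ℤ × (Fin n → ℤ) =>
        (cons d u T).dterm τ σ c ((triSplit' n).symm q) :=
      (triSplit' n).symm.summable_iff.mpr
        ((cons d u T).summable_dterm ⟨hd, hT'⟩ τ hτ σ c)
    have hSM : Summable (Function.uncurry M) := by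
      obtain ⟨C, hC⟩ := T.bound hT' (Real.pi * τ.re) (by positivity)
      obtain ⟨C₁, hC₁⟩ := gauss_one_bound (Real.pi * ((τ * d).re / normSq (τ * d)))
        (mul_pos Real.pi_pos (re_div_normSq_pos ha))
      have hprod := Summable.mul_of_nonneg (hC (fun j => σ j.succ)).1 (hC₁ (-c 0)).1
        (fun _ => (Real.exp_pos _).le) (fun _ => (Real.exp_pos _).le)
      refine Summable.of_norm (hprod.congr fun q => ?_)
      obtain ⟨x', m⟩ := q
      simp only [Function.uncurry, hM, hR, norm_mul, Complex.norm_exp]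
      congr 1
      · congr 1
        simp only [add_re, mul_re, neg_re, ofReal_re, neg_im, ofReal_im, mul_im, re_ofNat,
          im_ofNat, I_re, I_im]
        ring
      · congr 1
        have hmc : (((m : ℂ) - (c 0 : ℝ)) ^ 2) = (((m : ℝ) - c 0) ^ 2 : ℝ) := by push_cast; ring
        have hmI : (2 * (Real.pi : ℂ) * I * (m : ℂ) * ((σ 0 + L x' : ℝ) : ℂ)).re = 0 := by
          have : (2 * (Real.pi : ℂ) * I * (m : ℂ) * ((σ 0 + L x' : ℝ) : ℂ)) =
              ((2 * Real.pi * m * (σ 0 + L x') : ℝ) : ℂ) * I := by push_cast; ring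
          rw [this, mul_I_re, ofReal_im, neg_zero]
        rw [add_re, hmI, add_zero, hmc]
        simp only [neg_mul, neg_re, div_eq_mul_inv, mul_re, ofReal_re, ofReal_im, inv_re,
          inv_im, mul_zero, sub_zero, zero_mul]
        ring
    -- the chain
    calc ∑' x : Fin (n + 1) → ℤ, (cons d u T).term τ σ c x
        = ∑' q : (Fin n → ℤ) × ℤ, (cons d u T).term τ σ c ((triSplit n).symm q) :=
          ((triSplit n).symm.tsum_eq _).symm
      _ = ∑' x' : Fin n → ℤ, ∑' x₀ : ℤ, (cons d u T).term τ σ c ((triSplit n).symm (x', x₀)) :=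
          hS1.tsum_prod
      _ = ∑' x' : Fin n → ℤ, 1 / (τ * d) ^ (1 / 2 : ℂ) * ∑' m : ℤ, M x' m :=
          tsum_congr h2
      _ = 1 / (τ * d) ^ (1 / 2 : ℂ) * ∑' x' : Fin n → ℤ, ∑' m : ℤ, M x' m := tsum_mul_left
      _ = 1 / (τ * d) ^ (1 / 2 : ℂ) * ∑' m : ℤ, ∑' x' : Fin n → ℤ, M x' m := by
          rw [hSM.tsum_comm]
      _ = 1 / (τ * d) ^ (1 / 2 : ℂ) * ∑' m : ℤ, T.K τ * ∑' y' : Fin n → ℤ,
            (cons d u T).dterm τ σ c ((triSplit' n).symm (m, y')) := by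
          congr 1
          refine tsum_congr fun m => ?_
          simp_rw [h3]
          rw [tsum_mul_left, ih hT', mul_left_comm, ← tsum_mul_left]
          simp_rw [h5]
      _ = 1 / (τ * d) ^ (1 / 2 : ℂ) * (T.K τ * ∑' m : ℤ, ∑' y' : Fin n → ℤ,
            (cons d u T).dterm τ σ c ((triSplit' n).symm (m, y'))) := by
          rw [tsum_mul_left]
      _ = (cons d u T).K τ * ∑' q : ℤ × (Fin n → ℤ),
            (cons d u T).dterm τ σ c ((triSplit' n).symm q) := by
          rw [hS5.tsum_prod, K_cons, mul_assoc]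
      _ = (cons d u T).K τ * ∑' y : Fin (n + 1) → ℤ, (cons d u T).dterm τ σ c y := by
          rw [(triSplit' n).symm.tsum_eq]

end Tri

/-- `(τ d)^(1/2) = τ^(1/2) √d` for `d > 0`. -/
theorem cpow_half_mul_ofReal (τ : ℂ) (hτ : τ ≠ 0) (d : ℝ) (hd : 0 < d) :
    (τ * d) ^ (1 / 2 : ℂ) = τ ^ (1 / 2 : ℂ) * ((Real.sqrt d : ℝ) : ℂ) := by
  have hd0 : (d : ℂ) ≠ 0 := by exact_mod_cast hd.ne'
  rw [cpow_def_of_ne_zero (mul_ne_zero hτ hd0), log_mul_ofReal d hd τ hτ, add_mul, Complex.exp_add,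
    cpow_def_of_ne_zero hτ, mul_comm]
  congr 1
  rw [Real.sqrt_eq_rpow, Real.rpow_def_of_pos hd]
  push_cast
  ring_nf

end Fermat.Agent.S16.ThetaE
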