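import Fermat.Agent.S16.ThetaE.Defs
import Fermat.Agent.S16.ThetaE.PoissonTri

/-!
# S16 theta package, route E — package E2: Gaussian Poisson summation on `ℤ⁴`

`poissonA` is the theta inversion formula with a real shift `v`:

  `∑_{m ∈ ℤ⁴} e(w QA(m + v)) = -(p w²)⁻¹ ∑_{y ∈ ℤ⁴} e(-QB(y)/(p w) + y·v)`.

Proof: with `qq = 4 s - 1`,
`2 QA(x) = 2 (x₀ + x₁/2)² + (qq/2)(x₁ + 2 r x₃/qq)² + 2 p s (x₂ + x₃/(2s))² + p/(2 s qq) x₃²`,
a triangular sum of squares, to which the generic `Tri.poisson` of `PoissonTri.lean` applies.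
-/

set_option autoImplicit false

namespace Fermat.Agent.S16.ThetaE

open Complex

/-- The triangular data of `2 QA`. -/
noncomputable def triA (p : ℕ) (s r : ℤ) : Tri 4 :=
  .cons 2 ![1 / 2, 0, 0]
    (.cons ((4 * (s : ℝ) - 1) / 2) ![0, 2 * (r : ℝ) / (4 * (s : ℝ) - 1)]
      (.cons (2 * (p : ℝ) * (s : ℝ)) ![1 / (2 * (s : ℝ))]
        (.cons ((p : ℝ) / (2 * (s : ℝ) * (4 * (s : ℝ) - 1))) ![] .nil)))

theorem triA_pos {p : ℕ} {s r t : ℤ} (hp : 0 < p) (h : IsLat p s r t) : (triA p s r).Pos := by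
  have hs : (1 : ℝ) ≤ s := by exact_mod_cast h.hs
  have hp' : (0 : ℝ) < p := by exact_mod_cast hp
  have hqq : (0 : ℝ) < 4 * (s : ℝ) - 1 := by linarith
  have hs0 : (0 : ℝ) < s := by linarith
  refine ⟨by norm_num, by positivity, by positivity, by positivity, trivial⟩

theorem triA_Q {p : ℕ} {s r t : ℤ} (h : IsLat p s r t) (x : Fin 4 → ℝ) :
    (triA p s r).Q x = 2 * QA (p : ℝ) (s : ℝ) r t x := by
  have hs : (1 : ℝ) ≤ s := by exact_mod_cast h.hs
  have hqq : (4 * (s : ℝ) - 1) ≠ 0 := by linarith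
  have hs0 : (s : ℝ) ≠ 0 := by linarith
  have hrel : (4 * (s : ℝ) - 1) * t = (r : ℝ) ^ 2 + p := by exact_mod_cast h.hrel
  have ht : (t : ℝ) = ((r : ℝ) ^ 2 + p) / (4 * (s : ℝ) - 1) := by
    field_simp
    linarith
  have h23 : (Fin.succ (2 : Fin 3) : Fin 4) = 3 := rfl
  simp only [triA, Tri.Q_cons, Tri.Q_nil, QA, Fin.sum_univ_succ, Fin.sum_univ_zero, Fin.succ_zero_eq_one,
    Fin.succ_one_eq_two, Matrix.cons_val_zero, Matrix.cons_val_succ, ht, h23]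
  field_simp
  ring

theorem triA_Qs {p : ℕ} {s r t : ℤ} (hp : 0 < p) (h : IsLat p s r t) (y : Fin 4 → ℝ) :
    (triA p s r).Qs y = 2 / (p : ℝ) * QB (p : ℝ) (s : ℝ) r t y := by
  have hs : (1 : ℝ) ≤ s := by exact_mod_cast h.hs
  have hp' : (p : ℝ) ≠ 0 := by exact_mod_cast hp.ne'
  have hqq : (4 * (s : ℝ) - 1) ≠ 0 := by linarith
  have hs0 : (s : ℝ) ≠ 0 := by linarith
  have hrel : (4 * (s : ℝ) - 1) * t = (r : ℝ) ^ 2 + p := by exact_mod_cast h.hrel
  have ht : (t : ℝ) = ((r : ℝ) ^ 2 + p) / (4 * (s : ℝ) - 1) := by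
    field_simp
    linarith
  have h23 : (Fin.succ (2 : Fin 3) : Fin 4) = 3 := rfl
  simp only [triA, Tri.Qs_cons, Tri.Qs_nil, QB, Fin.succ_zero_eq_one,
    Fin.succ_one_eq_two, Matrix.cons_val_zero, Matrix.cons_val_succ, ht, h23]
  field_simp
  ring

theorem triA_K {p : ℕ} {s r t : ℤ} (hp : 0 < p) (h : IsLat p s r t) (τ : ℂ) (hτ : τ ≠ 0) :
    (triA p s r).K τ = 1 / (τ ^ 2 * (p : ℂ)) := by
  have hs : (1 : ℝ) ≤ s := by exact_mod_cast h.hs
  have hp' : (0 : ℝ) < p := by exact_mod_cast hp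
  have hqq : (0 : ℝ) < 4 * (s : ℝ) - 1 := by linarith
  have hs0 : (0 : ℝ) < s := by linarith
  have h2 : (τ ^ (1 / 2 : ℂ)) ^ 2 = τ := by
    have := Complex.cpow_nat_inv_pow τ (n := 2) (by norm_num)
    simp only [one_div] at this ⊢
    exact_mod_cast this
  have hsq : Real.sqrt 2 * Real.sqrt ((4 * (s : ℝ) - 1) / 2) * Real.sqrt (2 * (p : ℝ) * (s : ℝ)) *
      Real.sqrt ((p : ℝ) / (2 * (s : ℝ) * (4 * (s : ℝ) - 1))) = p := by
    rw [← Real.sqrt_mul (by norm_num), ← Real.sqrt_mul (by positivity),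
      ← Real.sqrt_mul (by positivity)]
    have : (2 * ((4 * (s : ℝ) - 1) / 2) * (2 * (p : ℝ) * (s : ℝ)) *
        ((p : ℝ) / (2 * (s : ℝ) * (4 * (s : ℝ) - 1)))) = (p : ℝ) ^ 2 := by
      field_simp
    rw [this, Real.sqrt_sq hp'.le]
  simp only [triA, Tri.K_cons, Tri.K_nil, mul_one]
  rw [cpow_half_mul_ofReal τ hτ 2 (by norm_num),
    cpow_half_mul_ofReal τ hτ ((4 * (s : ℝ) - 1) / 2) (by positivity),
    cpow_half_mul_ofReal τ hτ (2 * (p : ℝ) * (s : ℝ)) (by positivity),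
    cpow_half_mul_ofReal τ hτ ((p : ℝ) / (2 * (s : ℝ) * (4 * (s : ℝ) - 1))) (by positivity)]
  have hτh : τ ^ (1 / 2 : ℂ) ≠ 0 := by
    intro h0
    rw [h0] at h2
    exact hτ (by simpa using h2.symm)
  have hne : ∀ d : ℝ, 0 < d → ((Real.sqrt d : ℝ) : ℂ) ≠ 0 := fun d hd => by
    exact_mod_cast (Real.sqrt_pos.mpr hd).ne'
  have hp0 : (p : ℂ) ≠ 0 := by exact_mod_cast hp.ne'
  have e : τ ^ 2 * (p : ℂ) = (τ ^ (1 / 2 : ℂ)) ^ 4 * ((Real.sqrt 2 * Real.sqrt ((4 * (s : ℝ) - 1) / 2) *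
      Real.sqrt (2 * (p : ℝ) * (s : ℝ)) * Real.sqrt ((p : ℝ) / (2 * (s : ℝ) * (4 * (s : ℝ) - 1))) : ℝ) : ℂ) := by
    rw [hsq, show (τ ^ (1 / 2 : ℂ)) ^ 4 = ((τ ^ (1 / 2 : ℂ)) ^ 2) ^ 2 by ring, h2]
    push_cast
    ring
  rw [e]
  have := hne 2 (by norm_num)
  have := hne ((4 * (s : ℝ) - 1) / 2) (by positivity)
  have := hne (2 * (p : ℝ) * (s : ℝ)) (by positivity)
  have := hne ((p : ℝ) / (2 * (s : ℝ) * (4 * (s : ℝ) - 1))) (by positivity)
  push_cast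
  field_simp

/-- The Gaussian term of `QA` as a `Tri` term. -/
theorem triA_term {p : ℕ} {s r t : ℤ} (h : IsLat p s r t) (v : Fin 4 → ℝ) (w : ℂ)
    (m : Fin 4 → ℤ) :
    (triA p s r).term (-I * w) v 0 m =
      cexp (2 * Real.pi * I * w * QA (p : ℂ) (s : ℂ) r t (fun i => (m i : ℂ) + v i)) := by
  have e : QA (p : ℂ) (s : ℂ) r t (fun i => (m i : ℂ) + v i) =
      ((QA (p : ℝ) (s : ℝ) r t (fun i => (m i : ℝ) + v i) : ℝ) : ℂ) := by
    simp only [QA]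
    push_cast
    ring
  rw [Tri.term, triA_Q h, e]
  congr 1
  simp only [Pi.zero_apply, zero_mul, Finset.sum_const_zero, ofReal_zero, mul_zero, add_zero]
  push_cast
  ring

/-- The dual Gaussian term of `QB` as a `Tri` dual term. -/
theorem triA_dterm {p : ℕ} {s r t : ℤ} (hp : 0 < p) (h : IsLat p s r t) (v : Fin 4 → ℝ) (τ : ℂ)
    (y : Fin 4 → ℤ) :
    (triA p s r).dterm τ v 0 y =
      cexp (2 * Real.pi * I * ((I / (τ * (p : ℂ))) * QB (p : ℂ) (s : ℂ) r t (fun i => (y i : ℂ))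
        + dot4 (fun i => (y i : ℂ)) (fun i => (v i : ℂ)))) := by
  have hp0 : (p : ℂ) ≠ 0 := by exact_mod_cast hp.ne'
  have e : QB (p : ℂ) (s : ℂ) r t (fun i => (y i : ℂ)) =
      ((QB (p : ℝ) (s : ℝ) r t (fun i => (y i : ℝ)) : ℝ) : ℂ) := by
    simp only [QB]
    push_cast
    ring
  have e2 : dot4 (fun i => (y i : ℂ)) (fun i => (v i : ℂ)) =
      ((∑ i, (y i : ℝ) * v i : ℝ) : ℂ) := by
    simp only [dot4, Fin.sum_univ_four]
    push_cast
    ring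
  rw [Tri.dterm, e, e2]
  simp only [Pi.zero_apply, sub_zero]
  rw [triA_Qs hp h]
  congr 1
  by_cases hτ : τ = 0
  · subst hτ
    simp
  · have hI : (I : ℂ) ^ 2 = -1 := I_sq
    push_cast
    field_simp
    linear_combination (-((QB (p : ℝ) (s : ℝ) r t (fun i => (y i : ℝ)) : ℝ) : ℂ)) * hI

/-- Absolute summability of the shifted Gaussian family of `QA`. -/
theorem summable_gauss_QA {p : ℕ} {s r t : ℤ} (hp : 0 < p) (h : IsLat p s r t)
    (v : Fin 4 → ℝ) (w : ℂ) (hw : 0 < w.im) :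
    Summable fun m : Fin 4 → ℤ =>
      cexp (2 * Real.pi * I * w * QA (p : ℂ) (s : ℂ) r t (fun i => (m i : ℂ) + v i)) := by
  have hτ : 0 < (-I * w).re := by simpa using hw
  have := (triA p s r).summable_term (triA_pos hp h) (-I * w) hτ v 0
  exact this.congr fun m => triA_term h v w m

/-- Absolute summability of the Gaussian family of `QB` with a real linear phase. -/
theorem summable_gauss_QB {p : ℕ} {s r t : ℤ} (hp : 0 < p) (h : IsLat p s r t)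
    (v : Fin 4 → ℝ) (w : ℂ) (hw : 0 < w.im) :
    Summable fun y : Fin 4 → ℤ =>
      cexp (2 * Real.pi * I * (w * QB (p : ℂ) (s : ℂ) r t (fun i => (y i : ℂ))
        + dot4 (fun i => (y i : ℂ)) (fun i => (v i : ℂ)))) := by
  have hp0 : (p : ℂ) ≠ 0 := by exact_mod_cast hp.ne'
  have hw0 : w ≠ 0 := by
    rintro rfl
    simp at hw
  -- `τ = I / (w p)`, so that `I / (τ p) = w`
  have hτ : 0 < (I / (w * (p : ℂ))).re := by
    have hpr : (0 : ℝ) < p := by exact_mod_cast hp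
    have e : (I / (w * (p : ℂ))).re = w.im * p / normSq (w * p) := by
      rw [div_re]
      simp
    rw [e]
    exact div_pos (mul_pos hw hpr) (normSq_pos.mpr (mul_ne_zero hw0 hp0))
  have := (triA p s r).summable_dterm (triA_pos hp h) (I / (w * (p : ℂ))) hτ v 0
  refine this.congr fun y => ?_
  rw [triA_dterm hp h]
  congr 3
  field_simp

/-- Theta inversion (Poisson summation) for `QA` with a real shift. -/
theorem poissonA {p : ℕ} {s r t : ℤ} (hp : 0 < p) (h : IsLat p s r t)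
    (v : Fin 4 → ℝ) (w : ℂ) (hw : 0 < w.im) :
    ∑' m : Fin 4 → ℤ,
        cexp (2 * Real.pi * I * w * QA (p : ℂ) (s : ℂ) r t (fun i => (m i : ℂ) + v i)) =
      -((p : ℂ) * w ^ 2)⁻¹ * ∑' y : Fin 4 → ℤ,
        cexp (2 * Real.pi * I * ((-1 / ((p : ℂ) * w)) * QB (p : ℂ) (s : ℂ) r t (fun i => (y i : ℂ))
          + dot4 (fun i => (y i : ℂ)) (fun i => (v i : ℂ)))) := by
  have hp0 : (p : ℂ) ≠ 0 := by exact_mod_cast hp.ne'
  have hw0 : w ≠ 0 := by
    rintro rfl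
    simp at hw
  have hτ : 0 < (-I * w).re := by simpa using hw
  have hτ0 : -I * w ≠ 0 := mul_ne_zero (neg_ne_zero.mpr I_ne_zero) hw0
  have hI : (I : ℂ) ^ 2 = -1 := I_sq
  have key := (triA p s r).poisson (triA_pos hp h) (-I * w) hτ v 0
  simp_rw [triA_term h, triA_dterm hp h] at key
  rw [key, triA_K hp h _ hτ0]
  congr 1
  · field_simp
    linear_combination (1 : ℂ) * hI
  · refine tsum_congr fun y => ?_
    congr 3
    field_simp

end Fermat.Agent.S16.ThetaE
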