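import Fermat.Agent.S16.ThetaE.Algebra
import Fermat.Agent.S16.ThetaE.Poisson

/-!
# S16 theta package, route E — package E6: holomorphy, growth, and the `S`-law

* `thetaC_QA_S`: `poissonA` with `v = 0` and `w = -1/z`.
* holomorphy: locally uniform convergence of the Gaussian series on `{0 < im}` (Weierstrass M-test;
  Mathlib `differentiableOn_tsum_of_summable_norm`).
* growth: `‖thetaC Q z‖ ≤ ∑ₓ exp(-2 π c Q(x))` for `c ≤ im z`.
-/

set_option autoImplicit false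

namespace Fermat.Agent.S16.ThetaE

open Complex

/-- Casting `QA` from `ℤ` to `ℂ`. -/
theorem cusps_cast_QA (p s r t : ℤ) (x : Fin 4 → ℤ) :
    ((QA p s r t x : ℤ) : ℂ) = QA (p : ℂ) (s : ℂ) (r : ℂ) (t : ℂ) (fun i => (x i : ℂ)) := by
  unfold QA
  push_cast
  ring

/-- Casting `QB` from `ℤ` to `ℂ`. -/
theorem cusps_cast_QB (p s r t : ℤ) (y : Fin 4 → ℤ) :
    ((QB p s r t y : ℤ) : ℂ) = QB (p : ℂ) (s : ℂ) (r : ℂ) (t : ℂ) (fun i => (y i : ℂ)) := by
  unfold QB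
  push_cast
  ring

/-- The norm of a theta term. -/
theorem cusps_norm_term (n : ℤ) (w : ℂ) :
    ‖cexp (2 * Real.pi * I * (n : ℂ) * w)‖ = Real.exp (-(2 * Real.pi * (n : ℝ) * w.im)) := by
  rw [Complex.norm_exp]
  congr 1
  simp only [Complex.mul_re, Complex.mul_im, Complex.re_ofNat, Complex.im_ofNat, Complex.ofReal_re,
    Complex.ofReal_im, Complex.I_re, Complex.I_im, Complex.intCast_re, Complex.intCast_im]
  ring

/-- The norm of a theta term is monotone in the imaginary part (for a non-negative exponent). -/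
theorem cusps_norm_term_le {n : ℤ} (hn : 0 ≤ n) {c : ℝ} {w : ℂ} (hw : c ≤ w.im) :
    ‖cexp (2 * Real.pi * I * (n : ℂ) * w)‖ ≤ Real.exp (-(2 * Real.pi * (n : ℝ) * c)) := by
  rw [cusps_norm_term]
  apply Real.exp_le_exp.mpr
  have hn' : (0 : ℝ) ≤ (n : ℝ) := by exact_mod_cast hn
  have h1 : 2 * Real.pi * (n : ℝ) * c ≤ 2 * Real.pi * (n : ℝ) * w.im :=
    mul_le_mul_of_nonneg_left hw (by positivity)
  linarith

/-- Summability of the real majorant for `QA`. -/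
theorem cusps_summable_QA {p : ℕ} {s r t : ℤ} (hp : 0 < p) (h : IsLat p s r t) (c : ℝ)
    (hc : 0 < c) :
    Summable fun x : Fin 4 → ℤ => Real.exp (-(2 * Real.pi * ((QA (p : ℤ) s r t x : ℤ) : ℝ) * c)) := by
  have hI : 0 < ((c : ℂ) * I).im := by simpa using hc
  have h1 := (summable_gauss_QA hp h (fun _ => 0) ((c : ℂ) * I) hI).norm
  refine h1.congr fun x => ?_
  have e : QA (p : ℂ) (s : ℂ) (r : ℂ) (t : ℂ) (fun i => (x i : ℂ) + ((0 : ℝ) : ℂ))
      = ((QA (p : ℤ) s r t x : ℤ) : ℂ) := by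
    rw [cusps_cast_QA]
    simp
  rw [e]
  have e2 : 2 * (Real.pi : ℂ) * I * ((c : ℂ) * I) * ((QA (p : ℤ) s r t x : ℤ) : ℂ)
      = 2 * (Real.pi : ℂ) * I * ((QA (p : ℤ) s r t x : ℤ) : ℂ) * ((c : ℂ) * I) := by ring
  rw [e2, cusps_norm_term]
  simp

/-- Summability of the real majorant for `QB`. -/
theorem cusps_summable_QB {p : ℕ} {s r t : ℤ} (hp : 0 < p) (h : IsLat p s r t) (c : ℝ)
    (hc : 0 < c) :
    Summable fun y : Fin 4 → ℤ => Real.exp (-(2 * Real.pi * ((QB (p : ℤ) s r t y : ℤ) : ℝ) * c)) := by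
  have hI : 0 < ((c : ℂ) * I).im := by simpa using hc
  have h1 := (summable_gauss_QB hp h (fun _ => 0) ((c : ℂ) * I) hI).norm
  refine h1.congr fun y => ?_
  have e : 2 * (Real.pi : ℂ) * I * (((c : ℂ) * I) * QB (p : ℂ) (s : ℂ) (r : ℂ) (t : ℂ)
        (fun i => (y i : ℂ)) + dot4 (fun i => (y i : ℂ)) (fun _ => ((0 : ℝ) : ℂ)))
      = 2 * (Real.pi : ℂ) * I * ((QB (p : ℤ) s r t y : ℤ) : ℂ) * ((c : ℂ) * I) := by
    rw [cusps_cast_QB]
    simp only [dot4, Complex.ofReal_zero, mul_zero, add_zero, Int.cast_natCast]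
    ring
  rw [e, cusps_norm_term]
  simp

/-- The generic growth bound: a theta series with non-negative exponents and a summable majorant
is bounded on `{c ≤ im}`. -/
theorem cusps_norm_thetaC_le (Q : (Fin 4 → ℤ) → ℤ) (hQ : ∀ x, 0 ≤ Q x) (c : ℝ)
    (hsum : Summable fun x : Fin 4 → ℤ => Real.exp (-(2 * Real.pi * ((Q x : ℤ) : ℝ) * c)))
    (z : ℂ) (hz : c ≤ z.im) :
    ‖thetaC Q z‖ ≤ ∑' x : Fin 4 → ℤ, Real.exp (-(2 * Real.pi * ((Q x : ℤ) : ℝ) * c)) := by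
  unfold thetaC
  have hle : ∀ x : Fin 4 → ℤ, ‖cexp (2 * Real.pi * I * (Q x : ℂ) * z)‖
      ≤ Real.exp (-(2 * Real.pi * ((Q x : ℤ) : ℝ) * c)) := fun x => cusps_norm_term_le (hQ x) hz
  have hs : Summable fun x : Fin 4 → ℤ => ‖cexp (2 * Real.pi * I * (Q x : ℂ) * z)‖ :=
    Summable.of_nonneg_of_le (fun _ => norm_nonneg _) hle hsum
  exact (norm_tsum_le_tsum_norm hs).trans (hs.tsum_le_tsum hle hsum)

/-- The generic holomorphy statement. -/
theorem cusps_differentiableOn_thetaC (Q : (Fin 4 → ℤ) → ℤ) (hQ : ∀ x, 0 ≤ Q x)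
    (hsum : ∀ c : ℝ, 0 < c →
      Summable fun x : Fin 4 → ℤ => Real.exp (-(2 * Real.pi * ((Q x : ℤ) : ℝ) * c))) :
    DifferentiableOn ℂ (thetaC Q) {z : ℂ | 0 < z.im} := by
  intro z hz
  have hz' : 0 < z.im := hz
  set c : ℝ := z.im / 2 with hc
  have hc0 : 0 < c := by positivity
  have hU : IsOpen {w : ℂ | c < w.im} := isOpen_lt continuous_const Complex.continuous_im
  have hdiff : DifferentiableOn ℂ (fun w : ℂ => ∑' x : Fin 4 → ℤ,
      cexp (2 * Real.pi * I * (Q x : ℂ) * w)) {w : ℂ | c < w.im} := by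
    refine differentiableOn_tsum_of_summable_norm (hsum c hc0) (fun x => ?_) hU (fun x w hw => ?_)
    · exact (Complex.differentiable_exp.comp
        ((differentiable_const _).mul differentiable_id)).differentiableOn
    · exact cusps_norm_term_le (hQ x) (le_of_lt hw)
  have hzU : z ∈ {w : ℂ | c < w.im} := by
    show c < z.im
    rw [hc]; linarith
  exact (hdiff.differentiableAt (hU.mem_nhds hzU)).differentiableWithinAt

theorem thetaC_QA_S {p : ℕ} {s r t : ℤ} (hp : 0 < p) (h : IsLat p s r t) (z : ℂ) (hz : 0 < z.im) :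
    thetaC (QA (p : ℤ) s r t) (-1 / z) =
      -(z ^ 2 / (p : ℂ)) * thetaC (QB (p : ℤ) s r t) (z / (p : ℂ)) := by
  have hz0 : z ≠ 0 := by
    rintro rfl
    simp at hz
  have hp0 : (p : ℂ) ≠ 0 := by exact_mod_cast hp.ne'
  have hw : 0 < (-1 / z).im := by
    have e : -1 / z = -(z⁻¹) := by rw [neg_div, one_div]
    rw [e, Complex.neg_im, Complex.inv_im, neg_div, neg_neg]
    exact div_pos hz (Complex.normSq_pos.mpr hz0)
  have key := poissonA hp h (fun _ => 0) (-1 / z) hw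
  have hL : thetaC (QA (p : ℤ) s r t) (-1 / z) = ∑' m : Fin 4 → ℤ,
      cexp (2 * Real.pi * I * (-1 / z) * QA (p : ℂ) (s : ℂ) r t
        (fun i => (m i : ℂ) + ((0 : ℝ) : ℂ))) := by
    unfold thetaC
    refine tsum_congr fun m => ?_
    congr 1
    rw [cusps_cast_QA]
    simp only [Complex.ofReal_zero, add_zero, Int.cast_natCast]
    ring
  have hR : thetaC (QB (p : ℤ) s r t) (z / (p : ℂ)) = ∑' y : Fin 4 → ℤ,
      cexp (2 * Real.pi * I * ((-1 / ((p : ℂ) * (-1 / z))) * QB (p : ℂ) (s : ℂ) r t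
        (fun i => (y i : ℂ)) + dot4 (fun i => (y i : ℂ)) (fun _ => ((0 : ℝ) : ℂ)))) := by
    unfold thetaC
    refine tsum_congr fun y => ?_
    congr 1
    rw [cusps_cast_QB]
    simp only [dot4, Complex.ofReal_zero, mul_zero, add_zero, Int.cast_natCast]
    field_simp
  rw [hL, hR, key]
  congr 1
  field_simp

theorem differentiableOn_thetaC_QA {p : ℕ} {s r t : ℤ} (hp : 0 < p) (h : IsLat p s r t) :
    DifferentiableOn ℂ (thetaC (QA (p : ℤ) s r t)) {z : ℂ | 0 < z.im} :=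
  cusps_differentiableOn_thetaC _ (QA_nonneg hp h) (fun c hc => cusps_summable_QA hp h c hc)

theorem norm_thetaC_QA_le {p : ℕ} {s r t : ℤ} (hp : 0 < p) (h : IsLat p s r t) (c : ℝ) (hc : 0 < c) :
    ∃ C : ℝ, ∀ z : ℂ, c ≤ z.im → ‖thetaC (QA (p : ℤ) s r t) z‖ ≤ C :=
  ⟨_, fun z hz => cusps_norm_thetaC_le _ (QA_nonneg hp h) c (cusps_summable_QA hp h c hc) z hz⟩

theorem norm_thetaC_QB_le {p : ℕ} {s r t : ℤ} (hp : 0 < p) (h : IsLat p s r t) (c : ℝ) (hc : 0 < c) :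
    ∃ C : ℝ, ∀ z : ℂ, c ≤ z.im → ‖thetaC (QB (p : ℤ) s r t) z‖ ≤ C :=
  ⟨_, fun z hz => cusps_norm_thetaC_le _ (QB_nonneg hp h) c (cusps_summable_QB hp h c hc) z hz⟩

end Fermat.Agent.S16.ThetaE
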