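import Mathlib

/-!
# S16 theta package, route E: definitions

For integers `s ≥ 1`, `r`, `t` with `(4 s - 1) t = r ^ 2 + p` we consider the even quaternary
lattice `ℤ⁴` with Gram matrix

  `A = [[2,1,0,0],[1,2s,0,r],[0,0,2ps,p],[0,r,p,2t]]`   (`det A = p ^ 2`),

and `B = p A⁻¹` (integral, even).  `QA x = xᵀ A x / 2`, `QB y = yᵀ B y / 2`.
The theta series `∑ₓ e(QA(x) z)` is a weight 2 modular form on `Γ₀(p)` as soon as the Gauss sum
condition `GaussCond` holds.  See `notes/S16TH_route_E_helper2436.md` on `origin/helper2436`.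

Everything is polynomial in `(p, s, r, t)` and is defined over an arbitrary commutative ring, so the
same definitions serve over `ℤ`, `ℝ`, `ℂ` and `ZMod p`.
-/

set_option autoImplicit false

namespace Fermat.Agent.S16.ThetaE

open Complex

section poly

variable {R : Type*} [CommRing R]

/-- The quadratic form `xᵀ A x / 2`. -/
def QA (p s r t : R) (x : Fin 4 → R) : R :=
  x 0 ^ 2 + x 0 * x 1 + s * x 1 ^ 2 + r * x 1 * x 3 + p * s * x 2 ^ 2 + p * x 2 * x 3 + t * x 3 ^ 2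

/-- The quadratic form `yᵀ B y / 2`, `B = p A⁻¹`. -/
def QB (p s r t : R) (y : Fin 4 → R) : R :=
  s * t * y 0 ^ 2 + (4 * s * t - p) * y 1 ^ 2 + y 2 ^ 2 + (4 * s ^ 2 - s) * y 3 ^ 2
    + (p - 4 * s * t) * y 0 * y 1 - r * y 0 * y 2 + 2 * s * r * y 0 * y 3
    + 2 * r * y 1 * y 2 - 4 * s * r * y 1 * y 3 + (1 - 4 * s) * y 2 * y 3

/-- The linear map `x ↦ A x`. -/
def mulA (p s r t : R) (x : Fin 4 → R) : Fin 4 → R :=
  ![2 * x 0 + x 1, x 0 + 2 * s * x 1 + r * x 3, 2 * p * s * x 2 + p * x 3,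
    r * x 1 + p * x 2 + 2 * t * x 3]

/-- The linear map `y ↦ B y`. -/
def mulB (p s r t : R) (y : Fin 4 → R) : Fin 4 → R :=
  ![2 * s * t * y 0 + (p - 4 * s * t) * y 1 - r * y 2 + 2 * s * r * y 3,
    (p - 4 * s * t) * y 0 + (8 * s * t - 2 * p) * y 1 + 2 * r * y 2 - 4 * s * r * y 3,
    -r * y 0 + 2 * r * y 1 + 2 * y 2 + (1 - 4 * s) * y 3,
    2 * s * r * y 0 - 4 * s * r * y 1 + (1 - 4 * s) * y 2 + (8 * s ^ 2 - 2 * s) * y 3]

/-- The standard pairing `x · y = ∑ xᵢ yᵢ`, written out. -/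
def dot4 (x y : Fin 4 → R) : R := x 0 * y 0 + x 1 * y 1 + x 2 * y 2 + x 3 * y 3

end poly

/-- The lattice relation `(4 s - 1) t = r ^ 2 + p`, `s ≥ 1`. -/
structure IsLat (p : ℕ) (s r t : ℤ) : Prop where
  hs : 1 ≤ s
  hrel : (4 * s - 1) * t = r ^ 2 + p

/-- The Gauss sum condition: `∑_{g ∈ (ℤ/p)⁴} e(a QA(g) / p) = - p ^ 3` for all `a ≢ 0`. -/
def GaussCond (p : ℕ) [NeZero p] (s r t : ℤ) : Prop :=
  ∀ a : ZMod p, a ≠ 0 →
    ∑ g : Fin 4 → ZMod p, ZMod.stdAddChar (N := p) (a * QA (p : ZMod p) (s : ZMod p) r t g) =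
      -(p : ℂ) ^ 3

/-- The theta series `∑_{x ∈ ℤ⁴} e(Q(x) w)` of an integral quaternary form, as a function on `ℂ`
(only meaningful for `0 < w.im`). -/
noncomputable def thetaC (Q : (Fin 4 → ℤ) → ℤ) (w : ℂ) : ℂ :=
  ∑' x : Fin 4 → ℤ, cexp (2 * Real.pi * I * (Q x : ℂ) * w)

/-- The theta series of `QA` on the upper half plane. -/
noncomputable def thetaA (p : ℕ) (s r t : ℤ) (z : UpperHalfPlane) : ℂ :=
  thetaC (QA (p : ℤ) s r t) (z : ℂ)

/-- The number of representations of `n` by an integral quaternary form. -/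
noncomputable def repNum (Q : (Fin 4 → ℤ) → ℤ) (n : ℕ) : ℕ :=
  Nat.card {x : Fin 4 → ℤ // Q x = n}

end Fermat.Agent.S16.ThetaE
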