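import Fermat.Agent.S16.ThetaE.Defs

/-!
# S16 theta package, route E — package E5: generators of `Γ₀(p)`

A subgroup of `SL(2, ℤ)` containing `T`, `-1` and every matrix with lower-left entry exactly `p`
contains `Γ₀(p)`.

Proof: strong induction on `|c|` for `γ = [[a, b], [p c, d]]`.  If `c = 0` then `γ = ± T ^ n`.
Otherwise `p ∤ d`; one of `a' = -⌊d/c⌋`, `a' = -⌊d/c⌋ - sign c` is prime to `p` and satisfies
`|c a' + d| < |c|`.  Pick `δ = [[a', b'], [p, d']] ∈ SL(2, ℤ)`; then `γ δ` has lower-left entry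
`p (c a' + d)`, so `γ δ ∈ H` by induction, `δ ∈ H` by hypothesis.
-/

set_option autoImplicit false

namespace Fermat.Agent.S16.ThetaE

open Matrix MatrixGroups

/-- The determinant relation of an element of `SL(2, ℤ)`, written out. -/
theorem euclid_det (γ : SL(2, ℤ)) : γ 0 0 * γ 1 1 - γ 0 1 * γ 1 0 = 1 := by
  have h := γ.det_coe
  rw [Matrix.det_fin_two] at h
  exact h

/-- The case `c = 0`: upper triangular elements are `± T ^ n`. -/
theorem euclid_mem_of_zero (H : Subgroup SL(2, ℤ))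
    (hT : ModularGroup.T ∈ H) (hneg : (-1 : SL(2, ℤ)) ∈ H)
    (γ : SL(2, ℤ)) (h0 : γ 1 0 = 0) : γ ∈ H := by
  have hdet := euclid_det γ
  rw [h0, mul_zero, sub_zero] at hdet
  rcases Int.eq_one_or_neg_one_of_mul_eq_one' hdet with ⟨ha, hd⟩ | ⟨ha, hd⟩
  · have : γ = ModularGroup.T ^ (γ 0 1) := by
      ext i j
      rw [ModularGroup.coe_T_zpow]
      fin_cases i <;> fin_cases j <;> simp [ha, hd, h0]
    rw [this]
    exact H.zpow_mem hT _
  · have : γ = -1 * ModularGroup.T ^ (-(γ 0 1)) := by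
      ext i j
      rw [neg_one_mul, Matrix.SpecialLinearGroup.coe_neg, ModularGroup.coe_T_zpow]
      fin_cases i <;> fin_cases j <;> simp [ha, hd, h0]
    rw [this]
    exact H.mul_mem hneg (H.zpow_mem hT _)

/-- Existence of an element of `SL(2, ℤ)` with first column `(a', p)` when `p ∤ a'`. -/
theorem euclid_exists_delta (p : ℕ) (hp : p.Prime) (a' : ℤ) (ha' : ¬ (p : ℤ) ∣ a') :
    ∃ δ : SL(2, ℤ), δ 0 0 = a' ∧ δ 1 0 = (p : ℤ) := by
  have hcop : IsCoprime a' (p : ℤ) := by
    rw [isCoprime_comm]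
    exact (Nat.prime_iff_prime_int.mp hp).coprime_iff_not_dvd.mpr ha'
  obtain ⟨x, y, hxy⟩ := hcop
  refine ⟨⟨!![a', -y; (p : ℤ), x], ?_⟩, rfl, rfl⟩
  rw [Matrix.det_fin_two_of]
  linear_combination hxy

theorem Gamma0_le_of_mem (p : ℕ) (hp : p.Prime) (H : Subgroup SL(2, ℤ))
    (hT : ModularGroup.T ∈ H) (hneg : (-1 : SL(2, ℤ)) ∈ H)
    (hc : ∀ γ : SL(2, ℤ), γ 1 0 = (p : ℤ) → γ ∈ H) :
    CongruenceSubgroup.Gamma0 p ≤ H := by
  have hp0 : (0 : ℤ) < p := by exact_mod_cast hp.pos
  have hp2 : (2 : ℤ) ≤ p := by exact_mod_cast hp.two_le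
  -- strong induction on `|c|` where `γ 1 0 = p * c`
  have key : ∀ n : ℕ, ∀ γ : SL(2, ℤ), ∀ c : ℤ, γ 1 0 = p * c → c.natAbs = n → γ ∈ H := by
    intro n
    induction n using Nat.strong_induction_on with
    | _ n ih =>
      intro γ c hγ hn
      by_cases hc0 : c = 0
      · exact euclid_mem_of_zero H hT hneg γ (by rw [hγ, hc0, mul_zero])
      have hdet := euclid_det γ
      set d := γ 1 1 with hd
      -- `p ∤ d`
      have hpd : ¬ (p : ℤ) ∣ d := by
        rintro ⟨e, he⟩
        have h1 : (p : ℤ) ∣ 1 :=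
          ⟨γ 0 0 * e - γ 0 1 * c, by linear_combination -hdet + γ 0 0 * he - γ 0 1 * hγ⟩
        have := Int.le_of_dvd one_pos h1
        omega
      set q := d / c with hq
      set ρ := d % c with hρ
      have hdiv : c * q + ρ = d := Int.mul_ediv_add_emod d c
      have hρ0 : 0 ≤ ρ := Int.emod_nonneg d hc0
      have hρlt : ρ < |c| := Int.emod_lt_abs d hc0
      -- choose `a'`
      obtain ⟨a', ha'p, ha'lt⟩ : ∃ a' : ℤ, ¬ (p : ℤ) ∣ a' ∧ |c * a' + d| < |c| := by
        by_cases hpq : (p : ℤ) ∣ q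
        · -- then `ρ ≠ 0`, use `a' = -q - sign c`
          have hρne : ρ ≠ 0 := by
            intro h
            apply hpd
            rw [← hdiv, h, add_zero]
            exact Dvd.dvd.mul_left hpq c
          have hρpos : 0 < ρ := lt_of_le_of_ne hρ0 (Ne.symm hρne)
          refine ⟨-q - Int.sign c, ?_, ?_⟩
          · intro h
            have h2 : (p : ℤ) ∣ Int.sign c := by
              have := dvd_add h hpq
              have h3 : -q - Int.sign c + q = -Int.sign c := by ring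
              rw [h3] at this
              exact (dvd_neg).mp this
            rcases lt_or_gt_of_ne hc0 with hneg' | hpos'
            · rw [Int.sign_eq_neg_one_of_neg hneg'] at h2
              have := Int.le_of_dvd one_pos ((dvd_neg).mp h2)
              omega
            · rw [Int.sign_eq_one_of_pos hpos'] at h2
              have := Int.le_of_dvd one_pos h2
              omega
          · have h4 : c * (-q - Int.sign c) + d = ρ - |c| := by
              rw [← hdiv, ← Int.sign_mul_self_eq_abs c]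
              ring
            rw [h4, abs_lt]
            constructor <;> linarith [abs_pos.mpr hc0]
        · refine ⟨-q, ?_, ?_⟩
          · rwa [dvd_neg]
          · have h4 : c * (-q) + d = ρ := by rw [← hdiv]; ring
            rw [h4, abs_of_nonneg hρ0]
            exact hρlt
      obtain ⟨δ, hδ00, hδ10⟩ := euclid_exists_delta p hp a' ha'p
      have hδH : δ ∈ H := hc δ hδ10
      have hprod : (γ * δ) 1 0 = p * (c * a' + d) := by
        rw [Matrix.SpecialLinearGroup.coe_mul, Matrix.mul_apply, Fin.sum_univ_two, hδ00, hδ10, hγ]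
        ring
      have hlt : (c * a' + d).natAbs < n := by
        rw [← hn]
        have := ha'lt
        rw [Int.abs_eq_natAbs, Int.abs_eq_natAbs] at this
        exact_mod_cast this
      have hγδ : γ * δ ∈ H := ih _ hlt (γ * δ) (c * a' + d) hprod rfl
      have : γ = (γ * δ) * δ⁻¹ := by group
      rw [this]
      exact H.mul_mem hγδ (H.inv_mem hδH)
  intro γ hγ
  rw [CongruenceSubgroup.Gamma0_mem] at hγ
  obtain ⟨c, hc'⟩ := (ZMod.intCast_zmod_eq_zero_iff_dvd _ _).mp hγ
  exact key c.natAbs γ c hc' rfl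

/-- Coset decomposition `SL(2, ℤ) = Γ₀(p) ⊔ ⨆ₖ Γ₀(p) S Tᵏ`. -/
theorem exists_coset (p : ℕ) (hp : p.Prime) (g : SL(2, ℤ)) :
    g ∈ CongruenceSubgroup.Gamma0 p ∨
      ∃ k : ℤ, ∃ γ ∈ CongruenceSubgroup.Gamma0 p, g = γ * ModularGroup.S * ModularGroup.T ^ k := by
  by_cases hg : g ∈ CongruenceSubgroup.Gamma0 p
  · exact Or.inl hg
  right
  rw [CongruenceSubgroup.Gamma0_mem, ZMod.intCast_zmod_eq_zero_iff_dvd] at hg
  have hcop : IsCoprime (g 1 0) (p : ℤ) := by
    rw [isCoprime_comm]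
    exact (Nat.prime_iff_prime_int.mp hp).coprime_iff_not_dvd.mpr hg
  obtain ⟨x, y, hxy⟩ := hcop
  -- `k = d x`
  refine ⟨g 1 1 * x, g * (ModularGroup.T ^ (g 1 1 * x))⁻¹ * ModularGroup.S⁻¹, ?_, by group⟩
  rw [CongruenceSubgroup.Gamma0_mem, ZMod.intCast_zmod_eq_zero_iff_dvd]
  have hentry : (g * (ModularGroup.T ^ (g 1 1 * x))⁻¹ * ModularGroup.S⁻¹) 1 0 =
      g 1 0 * (g 1 1 * x) - g 1 1 := by
    rw [← _root_.zpow_neg]
    simp only [Matrix.SpecialLinearGroup.coe_mul, Matrix.SpecialLinearGroup.coe_inv,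
      ModularGroup.coe_T_zpow, ModularGroup.coe_S, Matrix.adjugate_fin_two_of, Matrix.mul_apply,
      Fin.sum_univ_two, Matrix.of_apply, Matrix.cons_val', Matrix.cons_val_zero,
      Matrix.cons_val_one, Matrix.cons_val_fin_one]
    ring
  rw [hentry]
  refine ⟨-(g 1 1 * y), ?_⟩
  linear_combination (g 1 1) * hxy

end Fermat.Agent.S16.ThetaE
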