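import Fermat.Agent.S16.ThetaE.GaussSum

/-!
# S16 theta package, route E — package E0: existence of the lattice data

For odd `p`: choose (Dirichlet, `Nat.forall_exists_prime_gt_and_modEq` modulo `4 p`) a prime
`ℓ ≡ 3 (mod 4)` with `-ℓ` a non-residue mod `p`; put `s = (ℓ + 1) / 4`.  By quadratic reciprocity
`-p` is a square mod `ℓ`, which gives `r` with `ℓ ∣ r ^ 2 + p` and `t = (r ^ 2 + p) / ℓ`.
-/

set_option autoImplicit false

namespace Fermat.Agent.S16.ThetaE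

/-- Auxiliary: a prime `ℓ ≡ 3 mod 4` with `-ℓ` a non-residue mod `p` and `ℓ ∣ r ^ 2 + p`. -/
theorem exists_aux_prime_E0 (p : ℕ) [hpf : Fact p.Prime] (hp2 : p ≠ 2) :
    ∃ (ℓ : ℕ) (r : ℤ), ℓ % 4 = 3 ∧ ¬ IsSquare (-(ℓ : ZMod p)) ∧ (ℓ : ℤ) ∣ r ^ 2 + (p : ℤ) := by
  have hodd : p % 2 = 1 := hpf.out.eq_two_or_odd.resolve_left hp2
  have hchar : ringChar (ZMod p) ≠ 2 := by
    rw [ZMod.ringChar_zmod_n]
    exact hp2
  obtain ⟨u, hu⟩ := FiniteField.exists_nonsquare (F := ZMod p) hchar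
  have hu0 : u ≠ 0 := by
    rintro rfl
    exact hu ⟨0, by simp⟩
  have hcop4 : Nat.Coprime 4 p := by
    have : Nat.Coprime p 4 := by
      rw [Nat.Prime.coprime_iff_not_dvd hpf.out]
      intro hdvd
      have hle := Nat.le_of_dvd (by norm_num) hdvd
      have h1lt := hpf.out.one_lt
      have : p = 3 := by omega
      subst this
      norm_num at hdvd
    exact this.symm
  obtain ⟨a, ha4, hap⟩ := Nat.chineseRemainder hcop4 3 (-u).val
  have hau : (a : ZMod p) = -u := by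
    rw [(ZMod.natCast_eq_natCast_iff a (-u).val p).mpr hap, ZMod.natCast_zmod_val]
  have ha_cop_p : Nat.Coprime a p := by
    rw [Nat.coprime_comm, Nat.Prime.coprime_iff_not_dvd hpf.out]
    intro hdvd
    apply hu0
    have h0 : (a : ZMod p) = 0 := (ZMod.natCast_eq_zero_iff a p).mpr hdvd
    rw [hau] at h0
    exact neg_eq_zero.mp h0
  have ha_cop_4 : Nat.Coprime a 4 := by
    have h3 : a % 4 = 3 := ha4
    have : Nat.Coprime a 2 := by
      rw [Nat.coprime_comm, Nat.Prime.coprime_iff_not_dvd Nat.prime_two]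
      omega
    exact Nat.Coprime.pow_right 2 this
  have hcop : Nat.Coprime a (4 * p) := Nat.Coprime.mul_right ha_cop_4 ha_cop_p
  obtain ⟨ℓ, hℓ2, hℓp, hℓa⟩ := Nat.forall_exists_prime_gt_and_modEq 2 (q := 4 * p) (a := a)
    (Nat.mul_ne_zero (by norm_num) hpf.out.ne_zero) hcop
  have : Fact ℓ.Prime := ⟨hℓp⟩
  have hℓ4 : ℓ % 4 = 3 := by
    have h1 : ℓ ≡ a [MOD 4] := hℓa.of_mul_right p
    have h2 : ℓ ≡ 3 [MOD 4] := h1.trans ha4
    exact h2
  have hℓu : (ℓ : ZMod p) = -u := by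
    have h1 : ℓ ≡ a [MOD p] := hℓa.of_mul_left 4
    rw [(ZMod.natCast_eq_natCast_iff ℓ a p).mpr h1, hau]
  have hnsq : ¬ IsSquare (-(ℓ : ZMod p)) := by
    rw [hℓu, neg_neg]
    exact hu
  -- Legendre symbols
  have hL0 : legendreSym p (-(ℓ : ℤ)) = -1 := by
    rw [legendreSym.eq_neg_one_iff]
    push_cast
    exact hnsq
  have hL0' : legendreSym p (-1) * legendreSym p (ℓ : ℤ) = -1 := by
    rw [← legendreSym.mul]
    have : (-1 : ℤ) * (ℓ : ℤ) = -(ℓ : ℤ) := by ring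
    rw [this]
    exact hL0
  have hℓne2 : ℓ ≠ 2 := by omega
  -- `legendreSym ℓ p = -1` in both cases
  have hL2 : legendreSym ℓ (p : ℤ) = -1 := by
    have h4 : p % 4 = 1 ∨ p % 4 = 3 := by omega
    rcases h4 with h1 | h3
    · rw [legendreSym.quadratic_reciprocity_one_mod_four h1 hℓne2]
      rw [legendreSym.at_neg_one hp2, ZMod.χ₄_nat_one_mod_four h1, one_mul] at hL0'
      exact hL0'
    · rw [legendreSym.quadratic_reciprocity_three_mod_four h3 hℓ4]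
      rw [legendreSym.at_neg_one hp2, ZMod.χ₄_nat_three_mod_four h3] at hL0'
      linarith
  have hL3 : legendreSym ℓ (-1) = -1 := by
    rw [legendreSym.at_neg_one hℓne2, ZMod.χ₄_nat_three_mod_four hℓ4]
  have hL4 : legendreSym ℓ (-(p : ℤ)) = 1 := by
    have : (-(p : ℤ)) = (-1) * (p : ℤ) := by ring
    rw [this, legendreSym.mul, hL2, hL3]
    norm_num
  have hne : ((-(p : ℤ) : ℤ) : ZMod ℓ) ≠ 0 := by
    intro h0
    have := legendreSym.eq_zero_iff ℓ (-(p : ℤ)) |>.mpr h0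
    rw [hL4] at this
    exact one_ne_zero this
  obtain ⟨y, hy⟩ := (legendreSym.eq_one_iff ℓ hne).mp hL4
  refine ⟨ℓ, (y.val : ℤ), hℓ4, hnsq, ?_⟩
  rw [← ZMod.intCast_zmod_eq_zero_iff_dvd]
  push_cast at hy ⊢
  rw [ZMod.natCast_zmod_val, sq, ← hy]
  ring

theorem exists_isLat_odd (p : ℕ) [Fact p.Prime] (hp2 : p ≠ 2) :
    ∃ s r t : ℤ, IsLat p s r t ∧ ¬ IsSquare (-(4 * (s : ZMod p) - 1)) := by
  obtain ⟨ℓ, r, hℓ4, hnsq, t, ht⟩ := exists_aux_prime_E0 p hp2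
  have hℓ : ℓ = 4 * (ℓ / 4 + 1) - 1 := by omega
  have hℓ' : (ℓ : ℤ) = 4 * (((ℓ / 4 + 1 : ℕ) : ℤ)) - 1 := by
    have h1 : ℓ + 1 = 4 * (ℓ / 4 + 1) := by omega
    have h2 : ((ℓ + 1 : ℕ) : ℤ) = ((4 * (ℓ / 4 + 1) : ℕ) : ℤ) := by rw [h1]
    push_cast at h2 ⊢
    linarith
  refine ⟨((ℓ / 4 + 1 : ℕ) : ℤ), r, t, ⟨?_, ?_⟩, ?_⟩
  · have : (1 : ℤ) ≤ ((ℓ / 4 + 1 : ℕ) : ℤ) := by
      have : 1 ≤ ℓ / 4 + 1 := Nat.le_add_left 1 _
      exact_mod_cast this
    exact this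
  · rw [← hℓ', ← ht]
  · have hcast : (4 * (((ℓ / 4 + 1 : ℕ) : ℤ) : ZMod p) - 1) = (ℓ : ZMod p) := by
      have := congrArg (fun z : ℤ => (z : ZMod p)) hℓ'
      simp only [Int.cast_natCast, Int.cast_sub, Int.cast_mul, Int.cast_ofNat, Int.cast_one]
        at this
      rw [this, Int.cast_natCast]
    rw [hcast]
    exact hnsq

theorem isLat_two : IsLat 2 1 1 1 := ⟨le_refl _, by norm_num⟩

/-- For every prime `p` there is lattice data satisfying the Gauss sum condition. -/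
theorem exists_isLat_gaussCond (p : ℕ) [Fact p.Prime] :
    ∃ s r t : ℤ, IsLat p s r t ∧ GaussCond p s r t := by
  by_cases hp2 : p = 2
  · subst hp2
    exact ⟨1, 1, 1, isLat_two, gaussCond_two⟩
  · obtain ⟨s, r, t, h, hns⟩ := exists_isLat_odd p hp2
    exact ⟨s, r, t, h, gaussCond_of_not_isSquare p hp2 s r t h hns⟩

end Fermat.Agent.S16.ThetaE
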