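import Fermat.Agent.S16.ThetaE.Algebra

/-!
# S16 theta package, route E — package E3: the Gauss sum of `QA` modulo `p`

For odd `p` and `qq = 4 s - 1` invertible mod `p`:
`4 QA(x) ≡ (2 x₀ + x₁)² + (qq x₁ + 2 r x₃)² / qq  (mod p)`
(the remaining terms `p s x₂² + p x₂ x₃ + (p/qq) x₃²` vanish mod `p`).  The change of variables
`(x₀,x₁,x₂,x₃) ↦ (X, Y, x₂, x₃)`, `X = 2 x₀ + x₁`, `Y = qq x₁ + 2 r x₃` is a bijection of `(ℤ/p)⁴`, so
the sum is `p² g(a/4) g(a/(4 qq))` with `g(c) = ∑_X e(c X²/p) = χ(c) g(1)`, `g(1)² = χ(-1) p`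
(Mathlib: `gaussSum_sq`, `quadraticChar`), i.e. `p³ χ(-qq) = -p³`.
-/

set_option autoImplicit false

namespace Fermat.Agent.S16.ThetaE

open Finset

/-- The complex-valued quadratic character of `ZMod p`. -/
noncomputable def gsum_chi (p : ℕ) [Fact p.Prime] : MulChar (ZMod p) ℂ :=
  (quadraticChar (ZMod p)).ringHomComp (Int.castRingHom ℂ)

theorem gsum_chi_apply (p : ℕ) [Fact p.Prime] (x : ZMod p) :
    gsum_chi p x = ((quadraticChar (ZMod p) x : ℤ) : ℂ) := rfl

theorem gsum_ringChar {p : ℕ} [Fact p.Prime] (hp2 : p ≠ 2) : ringChar (ZMod p) ≠ 2 :=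
  (ZMod.ringChar_zmod_n p).substr hp2

theorem gsum_chi_ne_one {p : ℕ} [Fact p.Prime] (hp2 : p ≠ 2) : gsum_chi p ≠ 1 := by
  intro h
  obtain ⟨a, ha⟩ := quadraticChar_exists_neg_one' (gsum_ringChar hp2)
  have h1 : gsum_chi p (a : ZMod p) = 1 := by rw [h]; exact MulChar.one_apply_coe a
  rw [gsum_chi_apply, ha] at h1
  norm_num at h1

theorem gsum_chi_isQuadratic (p : ℕ) [Fact p.Prime] : (gsum_chi p).IsQuadratic :=
  (quadraticChar_isQuadratic (ZMod p)).comp _

theorem gsum_sum_sq {p : ℕ} [Fact p.Prime] (hp2 : p ≠ 2) (c : ZMod p) (hc : c ≠ 0) :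
    ∑ x : ZMod p, ZMod.stdAddChar (N := p) (c * x ^ 2) =
      gsum_chi p c * gaussSum (gsum_chi p) (ZMod.stdAddChar (N := p)) := by
  classical
  have hprim := ZMod.isPrimitive_stdAddChar p
  -- regroup by the value of `x ^ 2`
  have h1 : ∑ x : ZMod p, ZMod.stdAddChar (N := p) (c * x ^ 2) =
      ∑ y : ZMod p, ((quadraticChar (ZMod p) y : ℤ) + 1 : ℂ) * ZMod.stdAddChar (N := p) (c * y) := by
    rw [← Finset.sum_fiberwise (Finset.univ) (fun x : ZMod p => x ^ 2)]
    refine Finset.sum_congr rfl fun y _ => ?_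
    have hcard := quadraticChar_card_sqrts (gsum_ringChar hp2) y
    rw [Finset.sum_congr rfl (g := fun _ => ZMod.stdAddChar (N := p) (c * y))
      (fun x hx => by rw [(Finset.mem_filter.mp hx).2])]
    rw [Finset.sum_const, nsmul_eq_mul]
    congr 1
    have : ((#{x : ZMod p | x ^ 2 = y}.toFinset : ℤ) : ℂ) = ((quadraticChar (ZMod p) y + 1 : ℤ) : ℂ) := by
      rw [hcard]
    rw [Int.cast_add, Int.cast_one] at this
    rw [← this]
    simp
  rw [h1]
  simp_rw [add_mul, one_mul]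
  rw [Finset.sum_add_distrib]
  have h2 : ∑ y : ZMod p, ZMod.stdAddChar (N := p) (c * y) = 0 := by
    have := AddChar.sum_mulShift (R := ZMod p) c hprim
    simp_rw [mul_comm _ c] at this
    rw [this, if_neg hc, Nat.cast_zero]
  rw [h2, add_zero]
  -- Gauss sum with a shift
  have hu : IsUnit c := isUnit_iff_ne_zero.mpr hc
  have h3 := gaussSum_mulShift_eq (gsum_chi p) (ZMod.stdAddChar (N := p)) hu.unit
  rw [(gsum_chi_isQuadratic p).inv] at h3
  rw [IsUnit.unit_spec] at h3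
  rw [← h3]
  simp [gaussSum, AddChar.mulShift_apply, gsum_chi_apply]

/-- The Gauss sum condition for odd `p` when `-(4 s - 1)` is a non-residue mod `p`. -/
theorem gaussCond_of_not_isSquare (p : ℕ) [Fact p.Prime] (hp2 : p ≠ 2) (s r t : ℤ)
    (h : IsLat p s r t) (hns : ¬ IsSquare (-(4 * (s : ZMod p) - 1))) :
    GaussCond p s r t := by
  classical
  intro a ha
  have hprim := ZMod.isPrimitive_stdAddChar p
  have hqq0 : (4 * (s : ZMod p) - 1) ≠ 0 := by
    intro h0; apply hns; rw [h0, neg_zero]; exact IsSquare.zero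
  have h2 : (2 : ZMod p) ≠ 0 := Ring.two_ne_zero (gsum_ringChar hp2)
  have h4 : (4 : ZMod p) ≠ 0 := by
    have : (4 : ZMod p) = 2 * 2 := by norm_num
    rw [this]; exact mul_ne_zero h2 h2
  have hrel : (4 * (s : ZMod p) - 1) * (t : ZMod p) = (r : ZMod p) ^ 2 := by
    have := congrArg (Int.cast : ℤ → ZMod p) h.hrel
    push_cast at this
    simpa using this
  set qq : ZMod p := 4 * (s : ZMod p) - 1 with hqq
  -- change of variables
  let e : (ZMod p × ZMod p × ZMod p × ZMod p) ≃ (Fin 4 → ZMod p) :=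
    { toFun := fun w => ![(w.1 - (w.2.1 - 2 * r * w.2.2.2) / qq) / 2,
        (w.2.1 - 2 * r * w.2.2.2) / qq, w.2.2.1, w.2.2.2]
      invFun := fun x => (2 * x 0 + x 1, qq * x 1 + 2 * r * x 3, x 2, x 3)
      left_inv := by
        rintro ⟨X, Y, u, v⟩
        simp only [Matrix.cons_val_zero, Matrix.cons_val_one, Matrix.cons_val]
        refine Prod.ext ?_ (Prod.ext ?_ rfl)
        · field_simp; ring
        · field_simp; ring
      right_inv := by
        intro x
        funext i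
        fin_cases i
        · simp; field_simp; try ring
        · simp; field_simp; try ring
        · simp
        · simp }
  rw [← e.sum_comp]
  have key : ∀ w : ZMod p × ZMod p × ZMod p × ZMod p,
      a * QA (p : ZMod p) (s : ZMod p) r t (e w) = a / 4 * w.1 ^ 2 + a / (4 * qq) * w.2.1 ^ 2 := by
    rintro ⟨X, Y, u, v⟩
    have hs : (s : ZMod p) = (qq + 1) / 4 := by rw [hqq]; field_simp; ring
    have ht : (t : ZMod p) = (r : ZMod p) ^ 2 / qq := by rw [← hrel]; field_simp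
    simp only [e, QA, Equiv.coe_fn_mk, Matrix.cons_val_zero, Matrix.cons_val_one, Matrix.cons_val,
      ZMod.natCast_self]
    rw [hs, ht]
    field_simp
    ring
  simp_rw [key, AddChar.map_add_eq_mul]
  have hsum : ∀ f g : ZMod p → ℂ, ∑ w : ZMod p × ZMod p × ZMod p × ZMod p, f w.1 * g w.2.1 =
      (p : ℂ) ^ 2 * ((∑ X, f X) * (∑ Y, g Y)) := by
    intro f g
    simp only [Fintype.sum_prod_type, Finset.sum_const, Finset.card_univ, ZMod.card,
      Fintype.card_prod, nsmul_eq_mul]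
    rw [Finset.sum_mul_sum]
    simp only [Finset.mul_sum]
    refine Finset.sum_congr rfl fun X _ => Finset.sum_congr rfl fun Y _ => ?_
    push_cast
    ring
  rw [hsum (fun X => ZMod.stdAddChar (N := p) (a / 4 * X ^ 2))
    (fun Y => ZMod.stdAddChar (N := p) (a / (4 * qq) * Y ^ 2))]
  have hα : a / 4 ≠ 0 := div_ne_zero ha h4
  have hβ : a / (4 * qq) ≠ 0 := div_ne_zero ha (mul_ne_zero h4 hqq0)
  rw [gsum_sum_sq hp2 _ hα, gsum_sum_sq hp2 _ hβ]
  have hG : gaussSum (gsum_chi p) (ZMod.stdAddChar (N := p)) ^ 2 = gsum_chi p (-1) * (p : ℂ) := by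
    have := gaussSum_sq (gsum_chi_ne_one hp2) (gsum_chi_isQuadratic p) hprim
    rwa [ZMod.card] at this
  have hchi : gsum_chi p (a / 4) * gsum_chi p (a / (4 * qq)) * gsum_chi p (-1) = -1 := by
    rw [← map_mul, ← map_mul]
    have : a / 4 * (a / (4 * qq)) * -1 = -qq * (a / (4 * qq)) ^ 2 := by
      field_simp
    rw [this, map_mul, gsum_chi_apply, gsum_chi_apply, quadraticChar_sq_one' hβ,
      quadraticChar_neg_one_iff_not_isSquare.mpr hns]
    norm_num
  calc (p : ℂ) ^ 2 * (gsum_chi p (a / 4) * gaussSum (gsum_chi p) ZMod.stdAddChar *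
        (gsum_chi p (a / (4 * qq)) * gaussSum (gsum_chi p) ZMod.stdAddChar))
      = (p : ℂ) ^ 2 * (gsum_chi p (a / 4) * gsum_chi p (a / (4 * qq)) *
          gaussSum (gsum_chi p) ZMod.stdAddChar ^ 2) := by ring
    _ = (p : ℂ) ^ 3 * (gsum_chi p (a / 4) * gsum_chi p (a / (4 * qq)) * gsum_chi p (-1)) := by
        rw [hG]; ring
    _ = -(p : ℂ) ^ 3 := by rw [hchi]; ring

/-- sign function on `ZMod 2` -/
def gsum_sign (x : ZMod 2) : ℤ := if x = 0 then 1 else -1

theorem gsum_stdAddChar_two (x : ZMod 2) : ZMod.stdAddChar (N := 2) x = (gsum_sign x : ℂ) := by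
  have h1 : ZMod.stdAddChar (N := 2) (1 : ZMod 2) = -1 := by
    have := ZMod.stdAddChar_coe (N := 2) 1
    simp only [Int.cast_one] at this
    rw [this]
    have : (2 * (Real.pi : ℂ) * Complex.I * 1 / ((2 : ℕ) : ℂ)) = Real.pi * Complex.I := by
      push_cast; ring
    rw [this, Complex.exp_pi_mul_I]
  have e0 : gsum_sign 0 = 1 := by decide
  have e1 : gsum_sign 1 = -1 := by decide
  fin_cases x
  · show ZMod.stdAddChar (N := 2) (0 : ZMod 2) = ((gsum_sign 0 : ℤ) : ℂ)
    rw [AddChar.map_zero_eq_one, e0, Int.cast_one]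
  · show ZMod.stdAddChar (N := 2) (1 : ZMod 2) = ((gsum_sign 1 : ℤ) : ℂ)
    rw [h1, e1]; norm_num

theorem gsum_count_two :
    ∑ g : Fin 4 → ZMod 2, gsum_sign (QA (2 : ZMod 2) (1 : ZMod 2) 1 1 g) = -8 := by
  decide

/-- The Gauss sum condition for `p = 2`, `(s, r, t) = (1, 1, 1)` (a finite check: the sum is `-8`). -/
theorem gaussCond_two : GaussCond 2 1 1 1 := by
  intro a ha
  have ha1 : a = 1 := by
    fin_cases a
    · exact absurd rfl ha
    · rfl
  subst ha1
  simp only [gsum_stdAddChar_two, one_mul, Nat.cast_ofNat, Int.cast_one]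
  rw [← Int.cast_sum, gsum_count_two]
  norm_num

end Fermat.Agent.S16.ThetaE
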