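import Fermat.Agent.S16.ThetaE.Algebra
import Fermat.Agent.S16.ThetaE.Poisson

/-!
# S16 theta package, route E — package E7: the `q`-expansion of the theta series

Group the absolutely convergent sum over `ℤ⁴` by the value of `QA` (`HasSum.tsum_fiberwise`); the
fibres are finite by coercivity, and `x ↦ -x` is a fixed-point-free involution of every fibre over
`n ≥ 1`.
-/

set_option autoImplicit false

namespace Fermat.Agent.S16.ThetaE

open Complex

/-- The integral form `QA`, cast to `ℝ`. -/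
theorem qexp_cast_real (p : ℕ) (s r t : ℤ) (x : Fin 4 → ℤ) :
    ((QA (p : ℤ) s r t x : ℤ) : ℝ) = QA (p : ℝ) (s : ℝ) r t (fun i => (x i : ℝ)) := by
  unfold QA
  push_cast
  ring

/-- The integral form `QA`, cast to `ℂ`. -/
theorem qexp_cast_complex (p : ℕ) (s r t : ℤ) (x : Fin 4 → ℤ) :
    ((QA (p : ℤ) s r t x : ℤ) : ℂ) = QA (p : ℂ) (s : ℂ) r t (fun i => (x i : ℂ)) := by
  unfold QA
  push_cast
  ring

/-- An integer is bounded by its square in absolute value. -/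
theorem qexp_abs_le_sq (k : ℤ) : |k| ≤ k ^ 2 := by
  rcases le_or_gt 0 k with hk | hk
  · rw [abs_of_nonneg hk]
    rcases eq_or_lt_of_le hk with h0 | h0
    · rw [← h0]; norm_num
    · nlinarith
  · rw [abs_of_neg hk]
    nlinarith

/-- The fibre of `QA` over `n` is contained in an explicit box. -/
theorem qexp_fiber_box {p : ℕ} {s r t : ℤ} (hp : 0 < p) (h : IsLat p s r t) (n : ℕ) :
    ∃ M : ℕ, ∀ x : Fin 4 → ℤ, QA (p : ℤ) s r t x = n → ∀ i, x i ∈ Finset.Icc (-(M : ℤ)) M := by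
  obtain ⟨ε, hε, hc⟩ := exists_coercive_QA hp h
  obtain ⟨M, hM⟩ := exists_nat_gt ((n : ℝ) / ε)
  refine ⟨M, fun x hx i => ?_⟩
  have h1 := hc (fun i => (x i : ℝ))
  rw [← qexp_cast_real, hx] at h1
  have h2 : (x i : ℝ) ^ 2 ≤ (x 0 : ℝ) ^ 2 + (x 1 : ℝ) ^ 2 + (x 2 : ℝ) ^ 2 + (x 3 : ℝ) ^ 2 := by
    have e0 := sq_nonneg (x 0 : ℝ)
    have e1 := sq_nonneg (x 1 : ℝ)
    have e2 := sq_nonneg (x 2 : ℝ)
    have e3 := sq_nonneg (x 3 : ℝ)
    fin_cases i <;> simp <;> linarith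
  have h3 : (x i : ℝ) ^ 2 ≤ (n : ℝ) / ε := by
    rw [le_div_iff₀ hε]
    have h1' : ε * (x 0 ^ 2 + x 1 ^ 2 + x 2 ^ 2 + x 3 ^ 2 : ℝ) ≤ (n : ℝ) := by exact_mod_cast h1
    nlinarith
  have h4 : (x i : ℝ) ^ 2 < (M : ℝ) := lt_of_le_of_lt h3 hM
  have h5 : (x i) ^ 2 < (M : ℤ) := by exact_mod_cast h4
  have h6 := qexp_abs_le_sq (x i)
  have h7 : |x i| ≤ (M : ℤ) := by linarith
  rw [Finset.mem_Icc]
  exact abs_le.mp h7

theorem finite_fiber_QA {p : ℕ} {s r t : ℤ} (hp : 0 < p) (h : IsLat p s r t) (n : ℕ) :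
    Finite {x : Fin 4 → ℤ // QA (p : ℤ) s r t x = n} := by
  obtain ⟨M, hM⟩ := qexp_fiber_box hp h n
  have hfin : Set.Finite {x : Fin 4 → ℤ | QA (p : ℤ) s r t x = n} := by
    refine Set.Finite.subset
      (Finset.finite_toSet (Fintype.piFinset fun _ : Fin 4 => Finset.Icc (-(M : ℤ)) M)) ?_
    intro x hx
    simp only [Finset.mem_coe, Fintype.mem_piFinset]
    exact hM x hx
  exact hfin.to_subtype

/-- The unshifted Gaussian family of `QA` is summable. -/
theorem qexp_summable {p : ℕ} {s r t : ℤ} (hp : 0 < p) (h : IsLat p s r t) (z : ℂ)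
    (hz : 0 < z.im) :
    Summable fun x : Fin 4 → ℤ => cexp (2 * Real.pi * I * ((QA (p : ℤ) s r t x : ℤ) : ℂ) * z) := by
  have h0 := summable_gauss_QA hp h (fun _ => 0) z hz
  refine h0.congr fun x => ?_
  rw [qexp_cast_complex]
  simp only [ofReal_zero, add_zero]
  congr 1
  ring

/-- The fibres of `x ↦ (QA x).toNat` are the fibres of `QA`. -/
theorem qexp_toNat_eq_iff {p : ℕ} {s r t : ℤ} (hp : 0 < p) (h : IsLat p s r t) (n : ℕ)
    (x : Fin 4 → ℤ) : (QA (p : ℤ) s r t x).toNat = n ↔ QA (p : ℤ) s r t x = n := by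
  have h0 := QA_nonneg hp h x
  omega

theorem hasSum_thetaC_QA {p : ℕ} {s r t : ℤ} (hp : 0 < p) (h : IsLat p s r t) (z : ℂ)
    (hz : 0 < z.im) :
    HasSum (fun n : ℕ => (repNum (QA (p : ℤ) s r t) n : ℂ) * cexp (2 * Real.pi * I * z) ^ n)
      (thetaC (QA (p : ℤ) s r t) z) := by
  have hs := (qexp_summable hp h z hz).hasSum.tsum_fiberwise
    (fun x : Fin 4 → ℤ => (QA (p : ℤ) s r t x).toNat)
  have key : ∀ n : ℕ,
      ∑' b : ((fun x : Fin 4 → ℤ => (QA (p : ℤ) s r t x).toNat) ⁻¹' {n}),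
        cexp (2 * Real.pi * I * ((QA (p : ℤ) s r t (b : Fin 4 → ℤ) : ℤ) : ℂ) * z) =
      (repNum (QA (p : ℤ) s r t) n : ℂ) * cexp (2 * Real.pi * I * z) ^ n := by
    intro n
    have hb : ∀ b : ((fun x : Fin 4 → ℤ => (QA (p : ℤ) s r t x).toNat) ⁻¹' {n}),
        cexp (2 * Real.pi * I * ((QA (p : ℤ) s r t (b : Fin 4 → ℤ) : ℤ) : ℂ) * z) =
          cexp (2 * Real.pi * I * z) ^ n := by
      rintro ⟨b, hb⟩
      have hb' : QA (p : ℤ) s r t b = n := (qexp_toNat_eq_iff hp h n b).1 hb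
      simp only [hb']
      rw [← Complex.exp_nat_mul]
      congr 1
      push_cast
      ring
    rw [tsum_congr hb, tsum_const, nsmul_eq_mul]
    congr 2
    unfold repNum
    exact Nat.card_congr (Equiv.subtypeEquivRight fun x => qexp_toNat_eq_iff hp h n x)
  have hfun : (fun n : ℕ => (repNum (QA (p : ℤ) s r t) n : ℂ) * cexp (2 * Real.pi * I * z) ^ n) =
      fun n : ℕ => ∑' b : ((fun x : Fin 4 → ℤ => (QA (p : ℤ) s r t x).toNat) ⁻¹' {n}),
        cexp (2 * Real.pi * I * ((QA (p : ℤ) s r t (b : Fin 4 → ℤ) : ℤ) : ℂ) * z) :=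
    funext fun n => (key n).symm
  rw [hfun]
  exact hs

theorem repNum_QA_zero {p : ℕ} {s r t : ℤ} (hp : 0 < p) (h : IsLat p s r t) :
    repNum (QA (p : ℤ) s r t) 0 = 1 := by
  unfold repNum
  have hne : Nonempty {x : Fin 4 → ℤ // QA (p : ℤ) s r t x = ((0 : ℕ) : ℤ)} :=
    ⟨⟨0, by simpa using (QA_eq_zero_iff hp h 0).2 rfl⟩⟩
  have hss : Subsingleton {x : Fin 4 → ℤ // QA (p : ℤ) s r t x = ((0 : ℕ) : ℤ)} := by
    refine ⟨fun a b => Subtype.ext ?_⟩
    have ha : (a : Fin 4 → ℤ) = 0 := (QA_eq_zero_iff hp h a).1 (by simpa using a.2)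
    have hb : (b : Fin 4 → ℤ) = 0 := (QA_eq_zero_iff hp h b).1 (by simpa using b.2)
    rw [ha, hb]
  exact Nat.card_unique

theorem even_repNum_QA {p : ℕ} {s r t : ℤ} (hp : 0 < p) (h : IsLat p s r t) (n : ℕ) (hn : 1 ≤ n) :
    Even (repNum (QA (p : ℤ) s r t) n) := by
  classical
  obtain ⟨M, hM⟩ := qexp_fiber_box hp h n
  have hfs : Set.Finite {x : Fin 4 → ℤ | QA (p : ℤ) s r t x = n} := by
    refine Set.Finite.subset
      (Finset.finite_toSet (Fintype.piFinset fun _ : Fin 4 => Finset.Icc (-(M : ℤ)) M)) ?_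
    intro x hx
    simp only [Finset.mem_coe, Fintype.mem_piFinset]
    exact hM x hx
  have hcard : repNum (QA (p : ℤ) s r t) n = hfs.toFinset.card := by
    unfold repNum
    rw [← Set.ncard_eq_toFinset_card _ hfs]
    exact Nat.card_coe_set_eq _
  have hmem : ∀ a : Fin 4 → ℤ, a ∈ hfs.toFinset ↔ QA (p : ℤ) s r t a = n := by
    intro a
    simp
  rw [hcard, ← ZMod.natCast_eq_zero_iff_even, Finset.card_eq_sum_ones, Nat.cast_sum]
  refine Finset.sum_involution (fun x _ => -x) ?_ ?_ ?_ ?_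
  · intro a _
    decide
  · intro a ha _ hneg
    have ha' := (hmem a).1 ha
    have h0 : a = 0 := by
      funext i
      have := congrFun hneg i
      simp only [Pi.neg_apply, Pi.zero_apply] at this ⊢
      omega
    have hq : QA (p : ℤ) s r t a = 0 := (QA_eq_zero_iff hp h a).2 h0
    rw [hq] at ha'
    have : (n : ℤ) = 0 := ha'.symm
    omega
  · intro a ha
    rw [hmem] at ha ⊢
    rw [QA_neg]
    exact ha
  · intro a _
    simp

end Fermat.Agent.S16.ThetaE
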