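import Fermat.Agent.S16.ThetaE.Algebra
import Fermat.Agent.S16.ThetaE.Poisson

/-!
# S16 theta package, route E — package E4: the transformation under `[[a, b], [p, d]]`

`γ z = a/p - 1/(p (p z + d))`.  Split `x = g + p m` (`g` running over representatives mod `p`):
`e(γ z · QA(x)) = e(a QA(g)/p) · e(w QA(m + g/p))`, `w = -p/(p z + d)` (`0 < w.im`).
Apply `poissonA` with `v = g / p`:

`θ(γ z) = -(p w²)⁻¹ ∑_y e(QB(y) (p z + d)/p²) S(y)`,  `S(y) = ∑_{g mod p} e((a QA(g) + y·g)/p)`.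

* `S(y) = 0` unless `B y ≡ 0 (mod p)` (shift `g ↦ g + B v`; uses `QA(g + B v) ≡ QA(g)` and
  `A B = p`), and `B y = p x` implies `y = A x`;
* `S(A x) = e(-d QA(x)/p) · G(a)` (shift `g ↦ g + d x`, using `a d ≡ 1 (mod p)`), `G(a) = -p³` by
  `GaussCond`.

Since `QB(A x) = p QA(x)`, the sum over `y = A x` is `-p³ ∑_x e(QA(x) z)`, whence the claim.
-/

set_option autoImplicit false

namespace Fermat.Agent.S16.ThetaE

open Complex

/-! ### Casts -/

theorem tr_QA_cast_C (p : ℕ) (s r t : ℤ) (x : Fin 4 → ℤ) :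
    ((QA (p : ℤ) s r t x : ℤ) : ℂ) = QA (p : ℂ) (s : ℂ) r t (fun i => (x i : ℂ)) := by
  have := QA_map (Int.castRingHom ℂ) (p : ℤ) s r t x
  simpa using this

theorem tr_QB_cast_C (p : ℕ) (s r t : ℤ) (x : Fin 4 → ℤ) :
    ((QB (p : ℤ) s r t x : ℤ) : ℂ) = QB (p : ℂ) (s : ℂ) r t (fun i => (x i : ℂ)) := by
  have := QB_map (Int.castRingHom ℂ) (p : ℤ) s r t x
  simpa using this

theorem tr_QA_cast_zmod (p : ℕ) (s r t : ℤ) (x : Fin 4 → ℤ) :
    ((QA (p : ℤ) s r t x : ℤ) : ZMod p) =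
      QA (p : ZMod p) (s : ZMod p) r t (fun i => (x i : ZMod p)) := by
  have := QA_map (Int.castRingHom (ZMod p)) (p : ℤ) s r t x
  simpa using this

theorem tr_mulA_cast_zmod (p : ℕ) (s r t : ℤ) (x : Fin 4 → ℤ) (i : Fin 4) :
    ((mulA (p : ℤ) s r t x i : ℤ) : ZMod p) =
      mulA (p : ZMod p) (s : ZMod p) r t (fun i => (x i : ZMod p)) i := by
  have := mulA_map (Int.castRingHom (ZMod p)) (p : ℤ) s r t x i
  simpa using this

theorem tr_mulB_cast_zmod (p : ℕ) (s r t : ℤ) (x : Fin 4 → ℤ) (i : Fin 4) :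
    ((mulB (p : ℤ) s r t x i : ℤ) : ZMod p) =
      mulB (p : ZMod p) (s : ZMod p) r t (fun i => (x i : ZMod p)) i := by
  have := mulB_map (Int.castRingHom (ZMod p)) (p : ℤ) s r t x i
  simpa using this

theorem tr_hrel_zmod {p : ℕ} {s r t : ℤ} (h : IsLat p s r t) :
    (4 * (s : ZMod p) - 1) * (t : ZMod p) = (r : ZMod p) ^ 2 + (p : ZMod p) := by
  have := congrArg (Int.cast : ℤ → ZMod p) h.hrel
  push_cast at this
  exact this

/-! ### The splitting `x = g + p m` -/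

/-- The bijection `(g, m) ↦ ĝ + p m` between `(ℤ/p)⁴ × ℤ⁴` and `ℤ⁴`. -/
noncomputable def trSplit (p : ℕ) [NeZero p] :
    (Fin 4 → ZMod p) × (Fin 4 → ℤ) ≃ (Fin 4 → ℤ) where
  toFun gm := fun i => ((gm.1 i).val : ℤ) + (p : ℤ) * gm.2 i
  invFun x := (fun i => (x i : ZMod p), fun i => x i / (p : ℤ))
  left_inv := by
    rintro ⟨g, m⟩
    have hp : (0 : ℤ) < (p : ℤ) := by exact_mod_cast Nat.pos_of_ne_zero (NeZero.ne p)
    refine Prod.ext (funext fun i => ?_) (funext fun i => ?_)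
    · simp
    · show (((g i).val : ℤ) + (p : ℤ) * m i) / (p : ℤ) = m i
      rw [Int.add_mul_ediv_left _ _ hp.ne', Int.ediv_eq_zero_of_lt (by positivity)
        (by exact_mod_cast ZMod.val_lt (g i)), zero_add]
  right_inv := by
    intro x
    funext i
    show (((x i : ZMod p).val : ℤ)) + (p : ℤ) * (x i / (p : ℤ)) = x i
    rw [ZMod.val_intCast, Int.emod_add_mul_ediv]

theorem trSplit_apply (p : ℕ) [NeZero p] (g : Fin 4 → ZMod p) (m : Fin 4 → ℤ) (i : Fin 4) :
    trSplit p (g, m) i = ((g i).val : ℤ) + (p : ℤ) * m i := rfl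

theorem trSplit_cast_zmod (p : ℕ) [NeZero p] (g : Fin 4 → ZMod p) (m : Fin 4 → ℤ) (i : Fin 4) :
    ((trSplit p (g, m) i : ℤ) : ZMod p) = g i := by
  simp [trSplit_apply]

/-! ### Finite Gauss sums -/

theorem tr_gauss_zero (p : ℕ) [Fact p.Prime] (s r t : ℤ) (h : IsLat p s r t) (a : ZMod p)
    (y : Fin 4 → ZMod p) (hy : mulB (p : ZMod p) (s : ZMod p) r t y ≠ 0) :
    ∑ g : Fin 4 → ZMod p,
      ZMod.stdAddChar (N := p) (a * QA (p : ZMod p) (s : ZMod p) r t g + dot4 y g) = 0 := by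
  classical
  have hrel := tr_hrel_zmod h
  obtain ⟨i, hi⟩ : ∃ i, mulB (p : ZMod p) (s : ZMod p) r t y i ≠ 0 := by
    by_contra hcon
    exact hy (funext fun i => not_not.mp fun hne => hcon ⟨i, hne⟩)
  set v : Fin 4 → ZMod p := Pi.single i 1 with hv
  set u := mulB (p : ZMod p) (s : ZMod p) r t v with hu
  have hp0 : ((p : ℕ) : ZMod p) = 0 := ZMod.natCast_self p
  have key : ∀ g, a * QA (p : ZMod p) (s : ZMod p) r t (g + u) + dot4 y (g + u) =
      (a * QA (p : ZMod p) (s : ZMod p) r t g + dot4 y g) +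
        mulB (p : ZMod p) (s : ZMod p) r t y i := by
    intro g
    have h1 : dot4 y (g + u) = dot4 y g + dot4 (mulB (p : ZMod p) (s : ZMod p) r t y) v := by
      rw [← dot4_mulB, ← hu]
      simp only [dot4, Pi.add_apply]
      ring
    have h2 : dot4 (mulB (p : ZMod p) (s : ZMod p) r t y) v =
        mulB (p : ZMod p) (s : ZMod p) r t y i := by
      rw [hv]
      fin_cases i <;> simp [dot4]
    rw [QA_add, hu, QA_mulB _ _ _ _ hrel, mulA_mulB _ _ _ _ hrel, ← hu, h1, h2, hp0]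
    simp only [dot4, zero_mul, mul_zero, add_zero]
    ring
  set S := ∑ g : Fin 4 → ZMod p,
      ZMod.stdAddChar (N := p) (a * QA (p : ZMod p) (s : ZMod p) r t g + dot4 y g) with hS
  have hsum : S = ZMod.stdAddChar (N := p) (mulB (p : ZMod p) (s : ZMod p) r t y i) * S := by
    rw [hS, Finset.mul_sum]
    rw [← Equiv.sum_comp (Equiv.addRight u)]
    refine Finset.sum_congr rfl fun g _ => ?_
    simp only [Equiv.coe_addRight]
    rw [key, AddChar.map_add_eq_mul, mul_comm]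
  have hne : ZMod.stdAddChar (N := p) (mulB (p : ZMod p) (s : ZMod p) r t y i) ≠ 1 := by
    intro h1
    apply hi
    apply ZMod.injective_stdAddChar (N := p)
    rw [h1, AddChar.map_zero_eq_one]
  have h0 : (1 - ZMod.stdAddChar (N := p) (mulB (p : ZMod p) (s : ZMod p) r t y i)) * S = 0 := by
    rw [sub_mul, one_mul, ← hsum, sub_self]
  rcases mul_eq_zero.mp h0 with h1 | h1
  · exact absurd (sub_eq_zero.mp h1).symm hne
  · exact h1

theorem tr_gauss_mulA (p : ℕ) [Fact p.Prime] (s r t : ℤ) (a d : ZMod p) (had : a * d = 1)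
    (x : Fin 4 → ZMod p) :
    ∑ g : Fin 4 → ZMod p, ZMod.stdAddChar (N := p)
        (a * QA (p : ZMod p) (s : ZMod p) r t g +
          dot4 (mulA (p : ZMod p) (s : ZMod p) r t x) g) =
      ZMod.stdAddChar (N := p) (-(d * QA (p : ZMod p) (s : ZMod p) r t x)) *
        ∑ g : Fin 4 → ZMod p, ZMod.stdAddChar (N := p)
          (a * QA (p : ZMod p) (s : ZMod p) r t g) := by
  classical
  rw [Finset.mul_sum]
  rw [← Equiv.sum_comp (Equiv.addRight (fun i => d * x i))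
    (fun g => ZMod.stdAddChar (N := p) (-(d * QA (p : ZMod p) (s : ZMod p) r t x)) *
      ZMod.stdAddChar (N := p) (a * QA (p : ZMod p) (s : ZMod p) r t g))]
  refine Finset.sum_congr rfl fun g _ => ?_
  rw [← AddChar.map_add_eq_mul]
  congr 1
  simp only [Equiv.coe_addRight]
  simp only [QA, mulA, dot4, Pi.add_apply, Matrix.cons_val_zero, Matrix.cons_val_one,
    Matrix.cons_val]
  linear_combination (-(g 0 * (2 * x 0 + x 1) + g 1 * (x 0 + 2 * (s : ZMod p) * x 1 + (r : ZMod p) * x 3)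
    + g 2 * (2 * (p : ZMod p) * (s : ZMod p) * x 2 + (p : ZMod p) * x 3)
    + g 3 * ((r : ZMod p) * x 1 + (p : ZMod p) * x 2 + 2 * (t : ZMod p) * x 3)
    + d * (x 0 ^ 2 + x 0 * x 1 + (s : ZMod p) * x 1 ^ 2 + (r : ZMod p) * x 1 * x 3
      + (p : ZMod p) * (s : ZMod p) * x 2 ^ 2 + (p : ZMod p) * x 2 * x 3 + (t : ZMod p) * x 3 ^ 2))) * had

/-! ### Lattice facts over `ℤ` -/

theorem tr_mulA_injective {p : ℕ} (hp : 0 < p) {s r t : ℤ} (h : IsLat p s r t) :
    Function.Injective (mulA (p : ℤ) s r t) := by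
  intro x x' hxx
  have h1 := mulB_mulA (p : ℤ) s r t h.hrel x
  have h2 := mulB_mulA (p : ℤ) s r t h.hrel x'
  rw [hxx, h2] at h1
  funext i
  have h3 := congrFun h1 i
  have hp' : (p : ℤ) ≠ 0 := by exact_mod_cast hp.ne'
  exact (mul_left_cancel₀ hp' h3).symm

theorem tr_exists_mulA {p : ℕ} (hp : 0 < p) {s r t : ℤ} (h : IsLat p s r t) (y : Fin 4 → ℤ)
    (hy : mulB (p : ZMod p) (s : ZMod p) r t (fun i => (y i : ZMod p)) = 0) :
    ∃ x : Fin 4 → ℤ, mulA (p : ℤ) s r t x = y := by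
  have hdvd : ∀ i, (p : ℤ) ∣ mulB (p : ℤ) s r t y i := by
    intro i
    rw [← ZMod.intCast_zmod_eq_zero_iff_dvd, tr_mulB_cast_zmod, hy]
    rfl
  choose x hx using hdvd
  refine ⟨x, ?_⟩
  have hp' : (p : ℤ) ≠ 0 := by exact_mod_cast hp.ne'
  have h1 := mulA_mulB (p : ℤ) s r t h.hrel y
  have h2 : mulB (p : ℤ) s r t y = fun i => (p : ℤ) * x i := funext hx
  rw [h2] at h1
  funext i
  have h3 := congrFun h1 i
  apply mul_left_cancel₀ hp'
  rw [← h3]
  fin_cases i <;> simp [mulA] <;> ring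

/-! ### Termwise identities -/

theorem tr_term (p : ℕ) [Fact p.Prime] (s r t : ℤ) (a b d : ℤ) (hdet : a * d - b * p = 1)
    (z : ℂ) (hD : (p : ℂ) * z + d ≠ 0) (g : Fin 4 → ZMod p) (m : Fin 4 → ℤ) :
    cexp (2 * Real.pi * I * ((QA (p : ℤ) s r t (trSplit p (g, m)) : ℤ) : ℂ) *
        (((a : ℂ) * z + b) / ((p : ℂ) * z + d))) =
      ZMod.stdAddChar (N := p) ((a : ZMod p) * QA (p : ZMod p) (s : ZMod p) r t g) *
        cexp (2 * Real.pi * I * (-(p : ℂ) / ((p : ℂ) * z + d)) *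
          QA (p : ℂ) (s : ℂ) r t (fun i => (m i : ℂ) + (((g i).val : ℝ) / (p : ℝ) : ℝ))) := by
  have hp : p.Prime := Fact.out
  have hpC : (p : ℂ) ≠ 0 := Nat.cast_ne_zero.mpr hp.ne_zero
  set x := trSplit p (g, m) with hx
  have hchar : ZMod.stdAddChar (N := p) ((a : ZMod p) * QA (p : ZMod p) (s : ZMod p) r t g) =
      cexp (2 * Real.pi * I * ((a * QA (p : ℤ) s r t x : ℤ) : ℂ) / (p : ℂ)) := by
    rw [← ZMod.stdAddChar_coe]
    congr 1
    push_cast
    rw [tr_QA_cast_zmod]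
    congr 2
    funext i
    rw [hx, trSplit_cast_zmod]
  have hQ : QA (p : ℂ) (s : ℂ) r t (fun i => (m i : ℂ) + (((g i).val : ℝ) / (p : ℝ) : ℝ)) =
      ((p : ℂ)⁻¹) ^ 2 * ((QA (p : ℤ) s r t x : ℤ) : ℂ) := by
    rw [tr_QA_cast_C, ← QA_smul]
    congr 1
    funext i
    rw [hx, trSplit_apply]
    push_cast
    field_simp
    ring
  have hdet' : (a : ℂ) * d - b * p = 1 := by exact_mod_cast hdet
  have hγ : ((a : ℂ) * z + b) / ((p : ℂ) * z + d) =
      a / p + (-(p : ℂ) / ((p : ℂ) * z + d)) * ((p : ℂ)⁻¹) ^ 2 := by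
    generalize hDdef : (p : ℂ) * z + d = D at hD ⊢
    field_simp
    linear_combination (-1 : ℂ) * hdet' + (a : ℂ) * hDdef
  rw [hchar, hQ, ← Complex.exp_add, hγ]
  congr 1
  push_cast
  ring

theorem tr_phase (p : ℕ) [Fact p.Prime] (y : Fin 4 → ℤ) (g : Fin 4 → ZMod p) :
    cexp (2 * Real.pi * I * dot4 (fun i => (y i : ℂ))
        (fun i => ((((g i).val : ℝ) / (p : ℝ) : ℝ) : ℂ))) =
      ZMod.stdAddChar (N := p) (dot4 (fun i => (y i : ZMod p)) g) := by
  have hp : p.Prime := Fact.out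
  have hpC : (p : ℂ) ≠ 0 := Nat.cast_ne_zero.mpr hp.ne_zero
  have h1 : dot4 (fun i => (y i : ZMod p)) g =
      ((y 0 * (g 0).val + y 1 * (g 1).val + y 2 * (g 2).val + y 3 * (g 3).val : ℤ) : ZMod p) := by
    simp [dot4]
  rw [h1, ZMod.stdAddChar_coe]
  congr 1
  simp only [dot4]
  push_cast
  field_simp

/-! ### The transformation law -/

theorem thetaC_QA_transform (p : ℕ) [Fact p.Prime] (s r t : ℤ) (h : IsLat p s r t)
    (hG : GaussCond p s r t) (a b d : ℤ) (hdet : a * d - b * p = 1) (z : ℂ) (hz : 0 < z.im) :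
    thetaC (QA (p : ℤ) s r t) (((a : ℂ) * z + b) / ((p : ℂ) * z + d)) =
      ((p : ℂ) * z + d) ^ 2 * thetaC (QA (p : ℤ) s r t) z := by
  classical
  have hp : p.Prime := Fact.out
  have hp0 : 0 < p := hp.pos
  have hpC : (p : ℂ) ≠ 0 := Nat.cast_ne_zero.mpr hp.ne_zero
  have hpR : (0 : ℝ) < p := by exact_mod_cast hp0
  have hdet' : (a : ℂ) * d - b * p = 1 := by exact_mod_cast hdet
  have hDim : 0 < ((p : ℂ) * z + d).im := by
    simp only [Complex.add_im, Complex.mul_im, Complex.natCast_re, Complex.natCast_im,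
      Complex.intCast_im, zero_mul, add_zero]
    positivity
  have hD0 : (p : ℂ) * z + d ≠ 0 := fun h0 => by rw [h0] at hDim; simp at hDim
  -- the auxiliary parameters
  obtain ⟨D, hDdef⟩ : ∃ D : ℂ, D = (p : ℂ) * z + d := ⟨_, rfl⟩
  obtain ⟨w, hw⟩ : ∃ w : ℂ, w = -(p : ℂ) / ((p : ℂ) * z + d) := ⟨_, rfl⟩
  obtain ⟨γ, hγdef⟩ : ∃ γ : ℂ, γ = ((a : ℂ) * z + b) / ((p : ℂ) * z + d) := ⟨_, rfl⟩
  obtain ⟨c, hcdef⟩ : ∃ c : ℂ, c = -1 / ((p : ℂ) * w) := ⟨_, rfl⟩
  rw [← hγdef, ← hDdef]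
  rw [← hDdef] at hDim hD0 hw hγdef
  have hwim : 0 < w.im := by
    rw [hw, Complex.div_im]
    simp only [Complex.neg_im, Complex.natCast_im, neg_zero, zero_mul, zero_div, Complex.neg_re,
      Complex.natCast_re, zero_sub, neg_mul, neg_div, neg_neg]
    have : 0 < Complex.normSq D := Complex.normSq_pos.mpr hD0
    positivity
  have hc : c = D / (p : ℂ) ^ 2 := by
    rw [hcdef, hw]
    field_simp
  have hcim : 0 < c.im := by
    have : c = D * (((p : ℝ) ^ 2)⁻¹ : ℝ) := by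
      rw [hc]; push_cast; ring
    rw [this, Complex.im_mul_ofReal]
    positivity
  have hγ : γ = a / p + w * ((p : ℂ)⁻¹) ^ 2 := by
    rw [hγdef, hw]
    field_simp
    linear_combination (-1 : ℂ) * hdet' - (a : ℂ) * hDdef
  have hγim : 0 < γ.im := by
    have : γ = (((a : ℝ) / (p : ℝ) : ℝ) : ℂ) + w * ((((p : ℝ)⁻¹) ^ 2 : ℝ) : ℂ) := by
      rw [hγ]; push_cast; ring
    rw [this, Complex.add_im, Complex.ofReal_im, Complex.im_mul_ofReal, zero_add]
    positivity
  -- summability of the original family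
  have hsumF : Summable fun x : Fin 4 → ℤ =>
      cexp (2 * Real.pi * I * ((QA (p : ℤ) s r t x : ℤ) : ℂ) * γ) := by
    refine (summable_gauss_QA hp0 h (fun _ => 0) γ hγim).congr fun x => ?_
    rw [tr_QA_cast_C]
    simp only [Complex.ofReal_zero, add_zero]
    ring_nf
  -- Step 1: split `x = ĝ + p m`
  have step1 : thetaC (QA (p : ℤ) s r t) γ = ∑ g : Fin 4 → ZMod p, ∑' m : Fin 4 → ℤ,
      cexp (2 * Real.pi * I * ((QA (p : ℤ) s r t (trSplit p (g, m)) : ℤ) : ℂ) * γ) := by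
    unfold thetaC
    have hs' : Summable fun gm : (Fin 4 → ZMod p) × (Fin 4 → ℤ) =>
        cexp (2 * Real.pi * I * ((QA (p : ℤ) s r t (trSplit p gm) : ℤ) : ℂ) * γ) :=
      (trSplit p).summable_iff.mpr hsumF
    rw [← (trSplit p).tsum_eq, Summable.tsum_prod' hs' (fun g => hs'.prod_factor g), tsum_fintype]
  -- Step 2: Poisson summation in `m`
  have step2 : ∀ g : Fin 4 → ZMod p, ∑' m : Fin 4 → ℤ,
      cexp (2 * Real.pi * I * ((QA (p : ℤ) s r t (trSplit p (g, m)) : ℤ) : ℂ) * γ) =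
      ZMod.stdAddChar (N := p) ((a : ZMod p) * QA (p : ZMod p) (s : ZMod p) r t g) *
        (-((p : ℂ) * w ^ 2)⁻¹ * ∑' y : Fin 4 → ℤ,
          cexp (2 * Real.pi * I * (c * QB (p : ℂ) (s : ℂ) r t (fun i => (y i : ℂ))
            + dot4 (fun i => (y i : ℂ))
              (fun i => ((((g i).val : ℝ) / (p : ℝ) : ℝ) : ℂ))))) := by
    intro g
    rw [hcdef, ← poissonA hp0 h (fun i => ((g i).val : ℝ) / (p : ℝ)) w hwim, ← tsum_mul_left]
    refine tsum_congr fun m => ?_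
    have := tr_term p s r t a b d hdet z (by rw [← hDdef]; exact hD0) g m
    rw [← hDdef, ← hγdef, ← hw] at this
    exact this
  -- Step 3: separate the phase
  have hterm : ∀ (g : Fin 4 → ZMod p) (y : Fin 4 → ℤ),
      cexp (2 * Real.pi * I * (c * QB (p : ℂ) (s : ℂ) r t (fun i => (y i : ℂ))
        + dot4 (fun i => (y i : ℂ)) (fun i => ((((g i).val : ℝ) / (p : ℝ) : ℝ) : ℂ)))) =
      cexp (2 * Real.pi * I * (c * QB (p : ℂ) (s : ℂ) r t (fun i => (y i : ℂ)))) *
        ZMod.stdAddChar (N := p) (dot4 (fun i => (y i : ZMod p)) g) := by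
    intro g y
    rw [mul_add, Complex.exp_add, tr_phase]
  have hsumB : ∀ g : Fin 4 → ZMod p, Summable fun y : Fin 4 → ℤ =>
      cexp (2 * Real.pi * I * (c * QB (p : ℂ) (s : ℂ) r t (fun i => (y i : ℂ)))) *
        ZMod.stdAddChar (N := p) (dot4 (fun i => (y i : ZMod p)) g) := by
    intro g
    refine (summable_gauss_QB hp0 h (fun i => ((g i).val : ℝ) / (p : ℝ)) c hcim).congr fun y => ?_
    exact hterm g y
  have step3 : thetaC (QA (p : ℤ) s r t) γ = -((p : ℂ) * w ^ 2)⁻¹ * ∑' y : Fin 4 → ℤ,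
      cexp (2 * Real.pi * I * (c * QB (p : ℂ) (s : ℂ) r t (fun i => (y i : ℂ)))) *
        ∑ g : Fin 4 → ZMod p, ZMod.stdAddChar (N := p)
          ((a : ZMod p) * QA (p : ZMod p) (s : ZMod p) r t g +
            dot4 (fun i => (y i : ZMod p)) g) := by
    rw [step1]
    calc ∑ g : Fin 4 → ZMod p, ∑' m : Fin 4 → ℤ,
          cexp (2 * Real.pi * I * ((QA (p : ℤ) s r t (trSplit p (g, m)) : ℤ) : ℂ) * γ)
        = ∑ g : Fin 4 → ZMod p, -((p : ℂ) * w ^ 2)⁻¹ * ∑' y : Fin 4 → ℤ,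
            ZMod.stdAddChar (N := p) ((a : ZMod p) * QA (p : ZMod p) (s : ZMod p) r t g) *
            (cexp (2 * Real.pi * I * (c * QB (p : ℂ) (s : ℂ) r t (fun i => (y i : ℂ)))) *
              ZMod.stdAddChar (N := p) (dot4 (fun i => (y i : ZMod p)) g)) := by
          refine Finset.sum_congr rfl fun g _ => ?_
          rw [step2 g, tsum_congr (hterm g), tsum_mul_left]
          ring
      _ = -((p : ℂ) * w ^ 2)⁻¹ * ∑' y : Fin 4 → ℤ, ∑ g : Fin 4 → ZMod p,
            ZMod.stdAddChar (N := p) ((a : ZMod p) * QA (p : ZMod p) (s : ZMod p) r t g) *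
            (cexp (2 * Real.pi * I * (c * QB (p : ℂ) (s : ℂ) r t (fun i => (y i : ℂ)))) *
              ZMod.stdAddChar (N := p) (dot4 (fun i => (y i : ZMod p)) g)) := by
          rw [← Finset.mul_sum, Summable.tsum_finsetSum (fun g _ => (hsumB g).mul_left _)]
      _ = _ := by
          congr 1
          refine tsum_congr fun y => ?_
          rw [Finset.mul_sum]
          refine Finset.sum_congr rfl fun g _ => ?_
          rw [AddChar.map_add_eq_mul]
          ring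
  -- Step 4: only `y = A x` contribute
  have had : (a : ZMod p) * (d : ZMod p) = 1 := by
    have := congrArg (Int.cast : ℤ → ZMod p) hdet
    push_cast at this
    simpa using this
  have ha : (a : ZMod p) ≠ 0 := by
    intro h0
    rw [h0, zero_mul] at had
    exact zero_ne_one had
  have hsupp : Function.support (fun y : Fin 4 → ℤ =>
      cexp (2 * Real.pi * I * (c * QB (p : ℂ) (s : ℂ) r t (fun i => (y i : ℂ)))) *
        ∑ g : Fin 4 → ZMod p, ZMod.stdAddChar (N := p)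
          ((a : ZMod p) * QA (p : ZMod p) (s : ZMod p) r t g +
            dot4 (fun i => (y i : ZMod p)) g)) ⊆ Set.range (mulA (p : ℤ) s r t) := by
    intro y hy
    rw [Function.mem_support] at hy
    by_contra hcon
    apply hy
    have hne : mulB (p : ZMod p) (s : ZMod p) r t (fun i => (y i : ZMod p)) ≠ 0 :=
      fun h0 => hcon (tr_exists_mulA hp0 h y h0)
    rw [tr_gauss_zero p s r t h a _ hne, mul_zero]
  -- Step 5: evaluate at `y = A x`
  have step5 : ∀ x : Fin 4 → ℤ,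
      cexp (2 * Real.pi * I * (c * QB (p : ℂ) (s : ℂ) r t
          (fun i => ((mulA (p : ℤ) s r t x i : ℤ) : ℂ)))) *
        ∑ g : Fin 4 → ZMod p, ZMod.stdAddChar (N := p)
          ((a : ZMod p) * QA (p : ZMod p) (s : ZMod p) r t g +
            dot4 (fun i => ((mulA (p : ℤ) s r t x i : ℤ) : ZMod p)) g) =
      -(p : ℂ) ^ 3 * cexp (2 * Real.pi * I * ((QA (p : ℤ) s r t x : ℤ) : ℂ) * z) := by
    intro x
    have hS : ∑ g : Fin 4 → ZMod p, ZMod.stdAddChar (N := p)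
          ((a : ZMod p) * QA (p : ZMod p) (s : ZMod p) r t g +
            dot4 (fun i => ((mulA (p : ℤ) s r t x i : ℤ) : ZMod p)) g) =
        ZMod.stdAddChar (N := p) (-((d : ZMod p) *
          QA (p : ZMod p) (s : ZMod p) r t (fun i => (x i : ZMod p)))) * (-(p : ℂ) ^ 3) := by
      rw [← hG a ha, ← tr_gauss_mulA p s r t a d had]
      simp only [tr_mulA_cast_zmod]
    have hchar : ZMod.stdAddChar (N := p) (-((d : ZMod p) *
          QA (p : ZMod p) (s : ZMod p) r t (fun i => (x i : ZMod p)))) =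
        cexp (2 * Real.pi * I * ((-(d * QA (p : ℤ) s r t x) : ℤ) : ℂ) / (p : ℂ)) := by
      rw [← ZMod.stdAddChar_coe]
      congr 1
      push_cast
      rw [tr_QA_cast_zmod]
    have hE : QB (p : ℂ) (s : ℂ) r t (fun i => ((mulA (p : ℤ) s r t x i : ℤ) : ℂ)) =
        (p : ℂ) * ((QA (p : ℤ) s r t x : ℤ) : ℂ) := by
      rw [← tr_QB_cast_C, QB_mulA _ _ _ _ h.hrel]
      push_cast
      rfl
    rw [hS, hchar, hE, hc]
    rw [← mul_assoc, ← Complex.exp_add, mul_comm]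
    congr 2
    push_cast
    rw [hDdef]
    field_simp
    ring
  rw [step3, ← (tr_mulA_injective hp0 h).tsum_eq hsupp, tsum_congr step5, tsum_mul_left]
  unfold thetaC
  rw [← mul_assoc]
  congr 1
  rw [hw]
  field_simp

end Fermat.Agent.S16.ThetaE
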