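import Fermat.Agent.S16.ThetaE.Exists
import Fermat.Agent.S16.ThetaE.Transform
import Fermat.Agent.S16.ThetaE.Euclid
import Fermat.Agent.S16.ThetaE.Cusps
import Fermat.Agent.S16.ThetaE.QExp
import Fermat.Prelude.Def_FLTPrelim_Modularity
import Fermat.Prelude.Thm_CongruenceSubgroup_one_mem_strictPeriods_Gamma0

/-!
# S16 theta package, route E — package E8: assembly

For every prime `p` there is `H : ModularForm (Gamma0 p) 2` with `a₀ = 1` and `aₙ ∈ 2ℤ` (`n ≥ 1`).
-/

set_option autoImplicit false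

namespace Fermat.Agent.S16.ThetaE

open Complex UpperHalfPlane ModularForm MatrixGroups CongruenceSubgroup Matrix.SpecialLinearGroup
open scoped Manifold

variable (p : ℕ) (s r t : ℤ)

/-- The stabiliser of a function under the weight `2` slash action of `SL(2, ℤ)`. -/
def slashStab (f : ℍ → ℂ) : Subgroup SL(2, ℤ) where
  carrier := {γ | f ∣[(2 : ℤ)] γ = f}
  mul_mem' := by
    intro a b ha hb
    simp only [Set.mem_ofPred_eq] at ha hb ⊢
    rw [SlashAction.slash_mul, ha, hb]
  one_mem' := by simp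
  inv_mem' := by
    intro a ha
    simp only [Set.mem_ofPred_eq] at ha ⊢
    conv_lhs => rw [← ha]
    rw [← SlashAction.slash_mul, mul_inv_cancel, SlashAction.slash_one]

theorem mem_slashStab (f : ℍ → ℂ) (γ : SL(2, ℤ)) : γ ∈ slashStab f ↔ f ∣[(2 : ℤ)] γ = f := Iff.rfl

theorem thetaA_slash_of_eq [Fact p.Prime] (h : IsLat p s r t) (hG : GaussCond p s r t)
    (γ : SL(2, ℤ)) (hγ : γ 1 0 = (p : ℤ)) : thetaA p s r t ∣[(2 : ℤ)] γ = thetaA p s r t := by
  funext z
  rw [ModularForm.slash_action_eq'_iff]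
  have hdet : γ 0 0 * γ 1 1 - γ 0 1 * p = 1 := by
    have := Matrix.SpecialLinearGroup.det_coe γ
    rw [Matrix.det_fin_two, hγ] at this
    linarith
  have key := thetaC_QA_transform p s r t h hG (γ 0 0) (γ 0 1) (γ 1 1) hdet (z : ℂ) z.im_pos
  simp only [thetaA]
  rw [UpperHalfPlane.coe_specialLinearGroup_apply, hγ]
  simpa using key

theorem thetaA_slash_T : thetaA p s r t ∣[(2 : ℤ)] ModularGroup.T = thetaA p s r t := by
  funext z
  rw [ModularForm.slash_action_eq'_iff]
  have h1 : ((ModularGroup.T • z : ℍ) : ℂ) = (z : ℂ) + 1 := by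
    simpa using ModularGroup.coe_T_zpow_smul_eq (z := z) (n := 1)
  have h10 : (ModularGroup.T 1 0 : ℤ) = 0 := by simp [ModularGroup.T]
  have h11 : (ModularGroup.T 1 1 : ℤ) = 1 := by simp [ModularGroup.T]
  simp only [thetaA, thetaC]
  rw [h1, h10, h11]
  simp only [Int.cast_zero, zero_mul, Int.cast_one, zero_add, one_zpow, one_mul]
  refine tsum_congr fun x => ?_
  rw [mul_add, Complex.exp_add, mul_one]
  have : cexp (2 * Real.pi * Complex.I * ((QA (p : ℤ) s r t x : ℤ) : ℂ)) = 1 := by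
    rw [Complex.exp_eq_one_iff]
    exact ⟨QA (p : ℤ) s r t x, by ring⟩
  rw [this, mul_one]

theorem slash_neg_one (f : ℍ → ℂ) : f ∣[(2 : ℤ)] (-1 : SL(2, ℤ)) = f := by
  funext z
  rw [ModularForm.slash_action_eq'_iff]
  have h1 : ((-1 : SL(2, ℤ)) • z : ℍ) = z := by
    ext
    rw [UpperHalfPlane.coe_specialLinearGroup_apply]
    simp
  rw [h1]
  simp

theorem thetaA_slash_Gamma0 [Fact p.Prime] (h : IsLat p s r t) (hG : GaussCond p s r t)
    (γ : SL(2, ℤ)) (hγ : γ ∈ Gamma0 p) : thetaA p s r t ∣[(2 : ℤ)] γ = thetaA p s r t := by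
  have := Gamma0_le_of_mem p (Fact.out) (slashStab (thetaA p s r t))
    ((mem_slashStab _ _).2 (thetaA_slash_T p s r t))
    ((mem_slashStab _ _).2 (slash_neg_one _))
    (fun γ hγ => (mem_slashStab _ _).2 (thetaA_slash_of_eq p s r t h hG γ hγ))
  exact (mem_slashStab _ _).1 (this hγ)

end Fermat.Agent.S16.ThetaE

namespace Fermat.Agent.S16.ThetaE

open Complex UpperHalfPlane ModularForm MatrixGroups CongruenceSubgroup Matrix.SpecialLinearGroup
open scoped Manifold

variable (p : ℕ) (s r t : ℤ)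

theorem mdifferentiable_thetaA (hp : 0 < p) (h : IsLat p s r t) : MDiff (thetaA p s r t) := by
  rw [UpperHalfPlane.mdifferentiable_iff]
  refine (differentiableOn_thetaC_QA hp h).congr fun z hz => ?_
  simp [thetaA, Function.comp, ofComplex_apply_of_im_pos hz]

theorem isBoundedAtImInfty_thetaA (hp : 0 < p) (h : IsLat p s r t) :
    IsBoundedAtImInfty (thetaA p s r t) := by
  rw [UpperHalfPlane.isBoundedAtImInfty_iff]
  obtain ⟨C, hC⟩ := norm_thetaC_QA_le hp h 1 one_pos
  exact ⟨C, 1, fun z hz => hC z hz⟩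

theorem thetaA_slash_S (hp : 0 < p) (h : IsLat p s r t) (z : ℍ) :
    (thetaA p s r t ∣[(2 : ℤ)] ModularGroup.S) z =
      -(1 / (p : ℂ)) * thetaC (QB (p : ℤ) s r t) ((z : ℂ) / p) := by
  rw [ModularForm.SL_slash_apply, ModularGroup.denom_S, UpperHalfPlane.modular_S_smul]
  have hz : (z : ℂ) ≠ 0 := z.ne_zero
  have key := thetaC_QA_S hp h (z : ℂ) z.im_pos
  simp only [thetaA]
  have e1 : (-(z : ℂ))⁻¹ = -1 / (z : ℂ) := by
    field_simp
  rw [e1, key]
  field_simp

theorem isBoundedAtImInfty_thetaA_slash_S_T (hp : 0 < p) (h : IsLat p s r t) (k : ℤ) :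
    IsBoundedAtImInfty ((thetaA p s r t ∣[(2 : ℤ)] ModularGroup.S) ∣[(2 : ℤ)] (ModularGroup.T ^ k)) := by
  rw [UpperHalfPlane.isBoundedAtImInfty_iff]
  have hp' : (0 : ℝ) < 1 / p := by positivity
  obtain ⟨C, hC⟩ := norm_thetaC_QB_le hp h (1 / p) hp'
  refine ⟨1 / p * C, 1, fun z hz => ?_⟩
  rw [ModularForm.SL_slash_apply, thetaA_slash_S p s r t hp h]
  have hden : denom ((ModularGroup.T ^ k : SL(2, ℤ))) z = 1 := by
    rw [ModularGroup.denom_apply]
    simp [ModularGroup.coe_T_zpow]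
  rw [hden]
  simp only [one_zpow, mul_one, norm_mul, norm_neg, norm_div, norm_one, Complex.norm_natCast]
  have him : (1 : ℝ) / p ≤ (((ModularGroup.T ^ k • z : ℍ) : ℂ) / (p : ℂ)).im := by
    rw [ModularGroup.coe_T_zpow_smul_eq]
    have : (((z : ℂ) + (k : ℂ)) / (p : ℂ)).im = z.im / p := by
      rw [Complex.div_natCast_im]
      simp
    rw [this]
    exact div_le_div_of_nonneg_right hz (by positivity)
  exact mul_le_mul_of_nonneg_left (hC _ him) (by positivity)

theorem isBoundedAtImInfty_thetaA_slash [Fact p.Prime] (h : IsLat p s r t) (hG : GaussCond p s r t)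
    (g : SL(2, ℤ)) : IsBoundedAtImInfty (thetaA p s r t ∣[(2 : ℤ)] g) := by
  have hp : 0 < p := (Fact.out : p.Prime).pos
  rcases exists_coset p Fact.out g with hg | ⟨k, γ, hγ, rfl⟩
  · rw [thetaA_slash_Gamma0 p s r t h hG g hg]
    exact isBoundedAtImInfty_thetaA p s r t hp h
  · rw [SlashAction.slash_mul, SlashAction.slash_mul, thetaA_slash_Gamma0 p s r t h hG γ hγ]
    exact isBoundedAtImInfty_thetaA_slash_S_T p s r t hp h k

/-- The theta series of `QA` as a weight 2 modular form on `Γ₀(p)`. -/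
noncomputable def thetaForm [Fact p.Prime] (h : IsLat p s r t) (hG : GaussCond p s r t) :
    ModularForm (Gamma0 p) 2 where
  toFun := thetaA p s r t
  slash_action_eq' := by
    intro γ hγ
    obtain ⟨γ', hγ', rfl⟩ := Subgroup.mem_map.1 hγ
    exact thetaA_slash_Gamma0 p s r t h hG γ' hγ'
  holo' := mdifferentiable_thetaA p s r t (Fact.out : p.Prime).pos h
  bdd_at_cusps' := by
    intro c hc
    have hc' : IsCusp c 𝒮ℒ := hc.mono (Subgroup.map_le_range _ _)
    rw [OnePoint.isBoundedAt_iff_forall_SL2Z hc']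
    intro γ _
    exact isBoundedAtImInfty_thetaA_slash p s r t h hG γ

theorem thetaForm_apply [Fact p.Prime] (h : IsLat p s r t) (hG : GaussCond p s r t) (z : ℍ) :
    thetaForm p s r t h hG z = thetaA p s r t z := rfl

theorem qCoeff_thetaForm [Fact p.Prime] (h : IsLat p s r t) (hG : GaussCond p s r t) (n : ℕ) :
    ModularFormClass.qCoeff (thetaForm p s r t h hG) n = (repNum (QA (p : ℤ) s r t) n : ℂ) := by
  have hp : 0 < p := (Fact.out : p.Prime).pos
  rw [ModularFormClass.qCoeff]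
  refine (ModularFormClass.qExpansion_coeff_unique (c := fun n => (repNum (QA (p : ℤ) s r t) n : ℂ))
    one_pos (CongruenceSubgroup.one_mem_strictPeriods_Gamma0 p) (f := thetaForm p s r t h hG)
    (fun τ => ?_) n).symm
  have := hasSum_thetaC_QA hp h (τ : ℂ) τ.im_pos
  simpa [Function.Periodic.qParam, thetaForm_apply, thetaA] using this

/-- **S16 theta package (route E).** For every prime `p` there is a weight 2 modular form on `Γ₀(p)`
whose `q`-expansion has constant term `1` and even higher coefficients. -/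
theorem exists_theta (p : ℕ) (hp : p.Prime) :
    ∃ H : ModularForm (CongruenceSubgroup.Gamma0 p) 2,
      ModularFormClass.qCoeff H 0 = 1 ∧
        ∀ n : ℕ, 1 ≤ n → ∃ m : ℤ, ModularFormClass.qCoeff H n = 2 * (m : ℂ) := by
  have : Fact p.Prime := ⟨hp⟩
  obtain ⟨s, r, t, h, hG⟩ := exists_isLat_gaussCond p
  refine ⟨thetaForm p s r t h hG, ?_, fun n hn => ?_⟩
  · rw [qCoeff_thetaForm, repNum_QA_zero hp.pos h]
    simp
  · obtain ⟨m, hm⟩ := even_repNum_QA hp.pos h n hn
    refine ⟨m, ?_⟩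
    rw [qCoeff_thetaForm, hm]
    push_cast
    ring

end Fermat.Agent.S16.ThetaE
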